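/-
GATE-B / E2 leaf GB-E2-TWDIAG (helper91) = (3) of helper67's GB-E2-GQLOCAL split.

**The decomposition group at a Taylor–Wiles prime acts diagonally**, frozen vocabulary.

`ρ : GaloisRepAdic A`, `A` noetherian local; `P | q` a valuation subring of `ℚ̄`, `φ` a Frobenius at
`P`; `B` an eigenbasis of `ρ φ` for eigenvalues `a, b` with `a - b` a unit
(`TameDiag.exists_eigenbasis` + `TameDiag.exists_roots_of_henselian`); `ρ` residually unramified at
`P` (`hunr`), `q ≡ 1 mod 𝔪`, and the tame relation `htame : ρ (φ s φ⁻¹) = ρ s ^ q` on `I_P`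
(= the output of helper67's `GB/E2/TameRelAdic`).  Then every `σ ∈ D_P` is diagonal in `B`:

* `decomposition_le_diagSubgroup : P.decompositionSubgroup ℚ ≤ diagSubgroup ρ.ρ B`,
* `decompChar i : P.decompositionSubgroup ℚ →* Aˣ` with `ρ σ (B i) = decompChar i σ • B i`,
  `decompChar i s ≡ 1 mod 𝔪` and `decompChar i s ^ q = decompChar i s` for `s ∈ I_P`.

Proof: `D_P = ⟨φ⟩ · I_P` modulo every finite level (`GP/Loc/FrobGen`), `⟨φ, I_P⟩` is diagonal
(`TameDiag.closure_le_diagSubgroup`), adic continuity, and Krull's intersection theorem on the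
off-diagonal coordinates.
-/
import Mathlib
import Fermat.Prelude.Def_GaloisRep_Adic
import Fermat.Agent.GP.Loc.FrobGen
import Fermat.Agent.GB.Local.TameDiag

set_option autoImplicit false

namespace Fermat.Agent.GB.E2.TWDiag

open IsLocalRing Fermat.Agent.GB.Local.TameDiag Fermat.Agent.Common_helper32
open scoped TensorProduct

section Gen

variable {A : Type*} [CommRing A] {V : Type*} [AddCommGroup V] [Module A V]

/-- `I • ⊤` is stable under every endomorphism. -/
theorem end_apply_mem_smul_top (I : Ideal A) (f : Module.End A V) {x : V}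
    (hx : x ∈ I • (⊤ : Submodule A V)) : f x ∈ I • (⊤ : Submodule A V) := by
  refine Submodule.smul_induction_on (p := fun x => f x ∈ I • (⊤ : Submodule A V)) hx ?_ ?_
  · intro r hr n _
    rw [map_smul]
    exact Submodule.smul_mem_smul hr Submodule.mem_top
  · intro x y hx hy
    rw [map_add]
    exact Submodule.add_mem _ hx hy

end Gen

section Loc

variable {A : Type} [CommRing A] [IsLocalRing A]

/-- **`D_P` is diagonal at a Taylor–Wiles prime.** -/
theorem decomposition_le_diagSubgroup [IsNoetherianRing A] (ρ : GaloisRepAdic A)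
    (P : ValuationSubring Qb) {q : ℕ} (hqp : q.Prime) (hP : (q : Qb) ∈ P.nonunits)
    {φ : GQ} (hφ : P.IsFrobeniusAt φ q)
    (B : Module.Basis (Fin 2) A ρ.V) (a b : A)
    (hf0 : ρ.ρ φ (B 0) = a • B 0) (hf1 : ρ.ρ φ (B 1) = b • B 1) (hab : IsUnit (a - b))
    (hunr : ∀ s ∈ P.inertiaSubgroupIn ℚ, ∀ v, ρ.ρ s v - v ∈ maximalIdeal A • (⊤ : Submodule A ρ.V))
    (hq : (q : A) - 1 ∈ maximalIdeal A)
    (htame : ∀ s ∈ P.inertiaSubgroupIn ℚ, ρ.ρ (φ * s * φ⁻¹) = ρ.ρ s ^ q) :
    P.decompositionSubgroup ℚ ≤ diagSubgroup ρ.ρ B := by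
  classical
  have hcl : Subgroup.closure (insert φ ((P.inertiaSubgroupIn ℚ : Subgroup GQ) : Set GQ)) ≤
      diagSubgroup ρ.ρ B :=
    closure_le_diagSubgroup ρ.ρ B φ a b hf0 hf1 hab _ (fun s hs => hunr s hs) q hq
      (fun s hs => htame s hs)
  intro σ hσ
  -- the off-diagonal coordinates of `ρ σ` lie in every power of `𝔪`
  have key : ∀ n : ℕ, ∀ i j : Fin 2, i ≠ j →
      B.repr (ρ.ρ σ (B j)) i ∈ maximalIdeal A ^ n := by
    intro n i j hij
    obtain ⟨L₀, hL₀, hcont⟩ := ρ.isAdicContinuous n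
    set L : IntermediateField ℚ Qb := IntermediateField.normalClosure ℚ L₀ Qb with hL
    have hLn : Normal ℚ L := normalClosure.normal ℚ L₀ Qb
    have hLf : FiniteDimensional ℚ L := normalClosure.is_finiteDimensional ℚ L₀ Qb
    have hle : L₀ ≤ L := L₀.le_normalClosure
    have hLg : IsGalois ℚ L := ⟨⟩
    obtain ⟨m, τ, hτ, hres⟩ := Fermat.Agent.GP.Loc.FrobGen.exists_restrictNormalHom_eq L P hqp hP hφ hσ
    set g : GQ := φ ^ m * τ with hg
    -- `h := g⁻¹ σ` fixes `L`
    have hfix : ∀ x ∈ L₀, (g⁻¹ * σ) x = x := by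
      intro x hx
      have hxL : x ∈ L := hle hx
      have h1 : AlgEquiv.restrictNormalHom L (g⁻¹ * σ) = 1 := by
        rw [map_mul, map_inv, hres, inv_mul_cancel]
      have h2 := AlgEquiv.restrictNormal_commutes (g⁻¹ * σ) L ⟨x, hxL⟩
      have h3 : (g⁻¹ * σ).restrictNormal L = 1 := h1
      rw [h3] at h2
      exact h2.symm
    have hgd : g ∈ diagSubgroup ρ.ρ B := by
      refine hcl (Subgroup.mul_mem _ (Subgroup.pow_mem _ (Subgroup.subset_closure
        (Set.mem_insert _ _)) m) (Subgroup.subset_closure (Set.mem_insert_of_mem _ hτ)))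
    obtain ⟨x, y, hx, hy⟩ := hgd
    have hσg : σ = g * (g⁻¹ * σ) := by rw [mul_inv_cancel_left]
    have hw := hcont (g⁻¹ * σ) hfix (B j)
    -- `ρ σ (B j) = ρ g (B j) + ρ g w`, `w ∈ 𝔪ⁿ V`
    have e1 : ρ.ρ σ (B j) = ρ.ρ g (B j) + ρ.ρ g (ρ.ρ (g⁻¹ * σ) (B j) - B j) := by
      rw [map_sub, add_sub_cancel, ← Module.End.mul_apply, ← map_mul, ← hσg]
    have hw' := end_apply_mem_smul_top _ (ρ.ρ g) hw
    have hc := repr_mem_of_mem_smul_top B _ hw' i
    rw [e1, map_add, Finsupp.add_apply]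
    refine Ideal.add_mem _ ?_ hc
    -- the diagonal part has no off-diagonal coordinate
    fin_cases j
    · rw [Fin.zero_eta, hx, map_smul, Module.Basis.repr_self, Finsupp.smul_apply,
        Finsupp.single_eq_of_ne (by simpa using hij), smul_zero]
      exact Ideal.zero_mem _
    · rw [Fin.mk_one, hy, map_smul, Module.Basis.repr_self, Finsupp.smul_apply,
        Finsupp.single_eq_of_ne (by simpa using hij), smul_zero]
      exact Ideal.zero_mem _
  have hkrull : ∀ c : A, (∀ n : ℕ, c ∈ maximalIdeal A ^ n) → c = 0 := by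
    intro c hc
    have h0 : (⨅ n : ℕ, maximalIdeal A ^ n) = ⊥ :=
      Ideal.iInf_pow_eq_bot_of_isLocalRing _ (maximalIdeal.isMaximal A).ne_top
    have : c ∈ (⨅ n : ℕ, maximalIdeal A ^ n) := by
      rw [Ideal.mem_iInf]; exact hc
    rw [h0] at this
    exact this
  have z10 : B.repr (ρ.ρ σ (B 0)) 1 = 0 := hkrull _ (fun n => key n 1 0 (by decide))
  have z01 : B.repr (ρ.ρ σ (B 1)) 0 = 0 := hkrull _ (fun n => key n 0 1 (by decide))
  refine ⟨B.repr (ρ.ρ σ (B 0)) 0, B.repr (ρ.ρ σ (B 1)) 1, ?_, ?_⟩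
  · have := B.sum_repr (ρ.ρ σ (B 0))
    rw [Fin.sum_univ_two, z10, zero_smul, add_zero] at this
    exact this.symm
  · have := B.sum_repr (ρ.ρ σ (B 1))
    rw [Fin.sum_univ_two, z01, zero_smul, zero_add] at this
    exact this.symm

theorem inertia_le_decomposition (P : ValuationSubring Qb) :
    P.inertiaSubgroupIn ℚ ≤ P.decompositionSubgroup ℚ := by
  rintro s ⟨t, -, rfl⟩
  exact t.2

/-- The two characters of `D_P` at a Taylor–Wiles prime, given the inclusion
`D_P ≤ diagSubgroup ρ.ρ B` (`decomposition_le_diagSubgroup`). -/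
noncomputable def decompChar (ρ : GaloisRepAdic A) (P : ValuationSubring Qb)
    (B : Module.Basis (Fin 2) A ρ.V) (h : P.decompositionSubgroup ℚ ≤ diagSubgroup ρ.ρ B)
    (i : Fin 2) : P.decompositionSubgroup ℚ →* Aˣ :=
  (diagChar ρ.ρ B i).comp (Subgroup.inclusion h)

theorem decompChar_spec (ρ : GaloisRepAdic A) (P : ValuationSubring Qb)
    (B : Module.Basis (Fin 2) A ρ.V) (h : P.decompositionSubgroup ℚ ≤ diagSubgroup ρ.ρ B)
    (i : Fin 2) (σ : P.decompositionSubgroup ℚ) :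
    ρ.ρ (σ : GQ) (B i) = (decompChar ρ P B h i σ : A) • B i :=
  diagChar_spec ρ.ρ B i (Subgroup.inclusion h σ)

/-- On inertia the characters are `≡ 1 mod 𝔪` and fixed by `x ↦ x ^ q`. -/
theorem decompChar_inertia (ρ : GaloisRepAdic A) (P : ValuationSubring Qb)
    (B : Module.Basis (Fin 2) A ρ.V) (h : P.decompositionSubgroup ℚ ≤ diagSubgroup ρ.ρ B)
    {φ : GQ} (a b : A) (hf0 : ρ.ρ φ (B 0) = a • B 0) (hf1 : ρ.ρ φ (B 1) = b • B 1)
    {q : ℕ} {s : GQ} (hs : s ∈ P.inertiaSubgroupIn ℚ)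
    (hunr : ∀ v, ρ.ρ s v - v ∈ maximalIdeal A • (⊤ : Submodule A ρ.V))
    (htame : ρ.ρ (φ * s * φ⁻¹) = ρ.ρ s ^ q) (i : Fin 2) :
    (decompChar ρ P B h i ⟨s, inertia_le_decomposition P hs⟩ : A) - 1 ∈ maximalIdeal A ∧
      (decompChar ρ P B h i ⟨s, inertia_le_decomposition P hs⟩ : A) ^ q =
        decompChar ρ P B h i ⟨s, inertia_le_decomposition P hs⟩ :=
  diagChar_inertia ρ.ρ B φ a b hf0 hf1 s hunr q htame (h (inertia_le_decomposition P hs)) i

/-- Residually unramified in the tensor spelling ⟹ `hunr`. -/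
theorem sub_mem_smul_top_of_baseChange_eq_one {V : Type*} [AddCommGroup V] [Module A V]
    (f : Module.End A V) (hf : f.baseChange (ResidueField A) = 1) (v : V) :
    f v - v ∈ maximalIdeal A • (⊤ : Submodule A V) := by
  have h1 : (1 : ResidueField A) ⊗ₜ[A] (f v - v) = 0 := by
    have := LinearMap.congr_fun hf ((1 : ResidueField A) ⊗ₜ[A] v)
    rw [LinearMap.baseChange_tmul, Module.End.one_apply] at this
    rw [TensorProduct.tmul_sub, this, sub_self]
  have h3 : (TensorProduct.quotTensorEquivQuotSMul V (maximalIdeal A))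
      ((1 : ResidueField A) ⊗ₜ[A] (f v - v)) = Submodule.Quotient.mk ((1 : A) • (f v - v)) :=
    TensorProduct.quotTensorEquivQuotSMul_mk_tmul (maximalIdeal A) 1 (f v - v)
  have h2 : (TensorProduct.quotTensorEquivQuotSMul V (maximalIdeal A))
      ((1 : ResidueField A) ⊗ₜ[A] (f v - v)) = 0 := by
    have := (TensorProduct.quotTensorEquivQuotSMul V (maximalIdeal A)).map_zero
    rw [← this]
    exact congrArg _ h1
  rw [h3, one_smul, Submodule.Quotient.mk_eq_zero] at h2
  exact h2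

end Loc

/-- A local ring which is henselian along its maximal ideal (e.g. `𝔪`-adically complete) is a
henselian local ring. -/
theorem henselianLocalRing_of_henselianRing (A : Type*) [CommRing A] [IsLocalRing A]
    [HenselianRing A (maximalIdeal A)] : HenselianLocalRing A :=
  { (inferInstance : IsLocalRing A) with
    is_henselian := fun f hf a₀ h1 h2 =>
      HenselianRing.is_henselian f hf a₀ h1 (h2.map (Ideal.Quotient.mk (maximalIdeal A))) }

section Hens

variable {A : Type} [CommRing A] [HenselianLocalRing A]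

/-- **Packaged form.**  `A` noetherian henselian local, `ρ φ` has residually the two eigenvalues
`a₀ ≠ b₀`; residually unramified at `P`, `q ≡ 1`, tame relation.  Then `ρ|D_P = χ₀ ⊕ χ₁`. -/
theorem exists_characters [IsNoetherianRing A] (ρ : GaloisRepAdic A)
    (P : ValuationSubring Qb) {q : ℕ} (hqp : q.Prime) (hP : (q : Qb) ∈ P.nonunits)
    {φ : GQ} (hφ : P.IsFrobeniusAt φ q) (a₀ b₀ : A)
    (htr : LinearMap.trace A ρ.V (ρ.ρ φ) - (a₀ + b₀) ∈ maximalIdeal A)
    (hdet : LinearMap.det (ρ.ρ φ) - a₀ * b₀ ∈ maximalIdeal A) (hab : IsUnit (a₀ - b₀))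
    (hunr : ∀ s ∈ P.inertiaSubgroupIn ℚ, ∀ v, ρ.ρ s v - v ∈ maximalIdeal A • (⊤ : Submodule A ρ.V))
    (hq : (q : A) - 1 ∈ maximalIdeal A)
    (htame : ∀ s ∈ P.inertiaSubgroupIn ℚ, ρ.ρ (φ * s * φ⁻¹) = ρ.ρ s ^ q) :
    ∃ (B : Module.Basis (Fin 2) A ρ.V) (χ : Fin 2 → P.decompositionSubgroup ℚ →* Aˣ),
      (∀ (i : Fin 2) (σ : P.decompositionSubgroup ℚ), ρ.ρ (σ : GQ) (B i) = (χ i σ : A) • B i) ∧
      (χ 0 ⟨φ, hφ.mem_decompositionSubgroup⟩ : A) - a₀ ∈ maximalIdeal A ∧
      (χ 1 ⟨φ, hφ.mem_decompositionSubgroup⟩ : A) - b₀ ∈ maximalIdeal A ∧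
      ∀ i (s : GQ) (hs : s ∈ P.inertiaSubgroupIn ℚ),
        (χ i ⟨s, inertia_le_decomposition P hs⟩ : A) - 1 ∈ maximalIdeal A ∧
          (χ i ⟨s, inertia_le_decomposition P hs⟩ : A) ^ q =
            χ i ⟨s, inertia_le_decomposition P hs⟩ := by
  obtain ⟨a, b, haa, hbb, hsum, hprod, hab'⟩ :=
    exists_roots_of_henselian (LinearMap.trace A ρ.V (ρ.ρ φ)) (LinearMap.det (ρ.ρ φ)) a₀ b₀
      htr hdet hab
  obtain ⟨B, hf0, hf1⟩ := exists_eigenbasis ρ.finrank_eq (ρ.ρ φ) a b hab' hsum.symm hprod.symm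
  have hD := decomposition_le_diagSubgroup ρ P hqp hP hφ B a b hf0 hf1 hab' hunr hq htame
  refine ⟨B, decompChar ρ P B hD, fun i σ => decompChar_spec ρ P B hD i σ, ?_, ?_,
    fun i s hs => decompChar_inertia ρ P B hD a b hf0 hf1 hs (hunr s hs) (htame s hs) i⟩
  · have h1 := decompChar_spec ρ P B hD 0 ⟨φ, hφ.mem_decompositionSubgroup⟩
    simp only at h1
    rw [hf0] at h1
    have h2 := congrArg (fun v => B.repr v 0) h1
    simp only [map_smul, Module.Basis.repr_self, Finsupp.smul_apply, Finsupp.single_eq_same,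
      smul_eq_mul, mul_one] at h2
    rw [← h2]; exact haa
  · have h1 := decompChar_spec ρ P B hD 1 ⟨φ, hφ.mem_decompositionSubgroup⟩
    simp only at h1
    rw [hf1] at h1
    have h2 := congrArg (fun v => B.repr v 1) h1
    simp only [map_smul, Module.Basis.repr_self, Finsupp.smul_apply, Finsupp.single_eq_same,
      smul_eq_mul, mul_one] at h2
    rw [← h2]; exact hbb

end Hens

end Fermat.Agent.GB.E2.TWDiag
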