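/-
GATE-B / ENGINE leaf E2, part (1) (helper67): **the tame relation on `G_ℚ`**.

`P` a place of `ℚ̄` over the prime `q`, `φ` a Frobenius element at `P`, `f : G_ℚ →* H` a
homomorphism factoring through a finite level such that `f(I_P)` is a `p`-group, `p ≠ q`.  Then

  `f (φ σ φ⁻¹) = f σ ^ q`   for every `σ ∈ I_P`,

and `f(I_P)` is commutative.  This is the instantiation of helper91's abstract finite-level
`GP/Loc/TameRel.map_conj_eq_pow` (a finite group acting faithfully on a DVR) on the DVR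
`P ∩ L` (`L/ℚ` finite normal, `GP/Loc/TamePQuot` infrastructure), descended along
`D_P → D_{P ∩ L}`.

* `map_conj_eq_pow_of_hom` : abstract descent along a group hom `θ : Γ →* D`;
* `map_conj_eq_pow_GQ`, `map_commute_GQ` : the `G_ℚ` statements (frozen vocabulary:
  `P.inertiaSubgroupIn ℚ`, `P.IsFrobeniusAt φ q`, finite level in the prelude shape).
-/
import Mathlib
import Fermat.Agent.GP.Loc.TameRel
import Fermat.Agent.GP.Loc.TamePQuot
import Fermat.Agent.GP.Loc.TWLocal

set_option autoImplicit false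
set_option linter.unusedSectionVars false
set_option linter.style.haveILetI false

open IsLocalRing
open Fermat.Agent.Common_helper32

namespace Fermat.Agent.GB.E2.TameRelGQ

open Fermat.Agent.GP.Loc.TameRel Fermat.Agent.GP.Loc.TamePQuot

/-! ### Abstract descent -/

section Abstract

variable {O : Type*} [CommRing O] [IsDomain O] [IsDiscreteValuationRing O]
variable {D : Type*} [Group D] [Finite D] [MulSemiringAction D O] [FaithfulSMul D O]

/-- **Tame relation, descended along a homomorphism.**  `θ : Γ →* D` with `D` a finite group acting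
faithfully on the DVR `O` of residue characteristic `q`; `J ⊴ Γ` acting (through `θ`) trivially on
the residue field; `φ ∈ Γ` acting (through `θ`) as `x ↦ x ^ q` on the residue field.  If
`f : Γ →* H` kills `ker θ` and `f(J)` is a `p`-group, `p ≠ q`, then `f (φ s φ⁻¹) = f s ^ q` on `J`
and `f(J)` is commutative. -/
theorem map_conj_eq_pow_of_hom (q : ℕ) [Fact q.Prime] (hchar : (q : O) ∈ maximalIdeal O)
    (p : ℕ) [Fact p.Prime] (hpq : p ≠ q)
    {Γ : Type*} [Group Γ] (θ : Γ →* D) (J : Subgroup Γ) [hJn : J.Normal]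
    (hJ : ∀ s ∈ J, ∀ x : O, θ s • x - x ∈ maximalIdeal O)
    (φ : Γ) (hφ : ∀ x : O, θ φ • x - x ^ q ∈ maximalIdeal O)
    {H : Type*} [Group H] (f : Γ →* H) (hker : θ.ker ≤ f.ker) (hf : IsPGroup p (J.map f)) :
    (∀ s ∈ J, f (φ * s * φ⁻¹) = f s ^ q) ∧ (∀ s ∈ J, ∀ t ∈ J, f s * f t = f t * f s) := by
  -- the image group
  set θ' : Γ →* θ.range := θ.rangeRestrict with hθ'
  have hsurj : Function.Surjective θ' := θ.rangeRestrict_surjective
  have hker' : θ'.ker ≤ f.ker := by rw [hθ', MonoidHom.ker_rangeRestrict]; exact hker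
  set f' : θ.range →* H := θ'.liftOfRightInverse (Function.surjInv hsurj)
    (Function.rightInverse_surjInv hsurj) ⟨f, hker'⟩ with hf'
  have hf'θ : ∀ x : Γ, f' (θ' x) = f x := fun x =>
    MonoidHom.liftOfRightInverse_comp_apply θ' (Function.surjInv hsurj)
      (Function.rightInverse_surjInv hsurj) ⟨f, hker'⟩ x
  set I' : Subgroup θ.range := J.map θ' with hI'
  haveI : I'.Normal := Subgroup.Normal.map hJn θ' hsurj
  have hI'triv : ∀ s ∈ I', ∀ x : O, s • x - x ∈ maximalIdeal O := by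
    rintro _ ⟨j, hj, rfl⟩ x
    exact hJ j hj x
  have hφ' : ∀ x : O, (θ' φ) • x - x ^ q ∈ maximalIdeal O := fun x => hφ x
  have hmap : I'.map f' = J.map f := by
    rw [hI', Subgroup.map_map]
    congr 1
    ext x
    exact hf'θ x
  have hf'p : IsPGroup p (I'.map f') := by rw [hmap]; exact hf
  obtain ⟨h1, h2, -⟩ := map_conj_eq_pow (O := O) (D := θ.range) q hchar p hpq I' hI'triv (θ' φ) hφ'
    f' hf'p
  refine ⟨fun s hs => ?_, fun s hs t ht => ?_⟩
  · have := h1 (θ' s) ⟨s, hs, rfl⟩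
    rw [← map_inv, ← map_mul, ← map_mul, hf'θ, hf'θ] at this
    exact this
  · have := h2 (θ' s) ⟨s, hs, rfl⟩ (θ' t) ⟨t, ht, rfl⟩
    rw [hf'θ, hf'θ] at this
    exact this

end Abstract

/-! ### The `G_ℚ` statement -/

section Concrete

open Fermat.Agent.GL.Local.ComapDVR Fermat.Agent.S05

variable (P : ValuationSubring Qb) {q : ℕ}

end Concrete

section Restrict

open Fermat.Agent.GL.Local.ComapDVR Fermat.Agent.S05

variable {K Ω : Type*} [Field K] [Field Ω] [Algebra K Ω]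
variable (A : ValuationSubring Ω) (L : IntermediateField K Ω) [Normal K L]

/-- the restriction map `D_A → D_{A ∩ L}` for `L/K` normal. -/
noncomputable def decompRestrict :
    ↥(A.decompositionSubgroup K) →* ↥((sub A (L := L)).decompositionSubgroup K) where
  toFun σ := ⟨AlgEquiv.restrictNormalHom L (σ : Ω ≃ₐ[K] Ω),
    restrictNormalHom_mem_decompositionSubgroup A L σ.2⟩
  map_one' := by
    apply Subtype.ext
    show AlgEquiv.restrictNormalHom L ((1 : ↥(A.decompositionSubgroup K)) : Ω ≃ₐ[K] Ω) = 1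
    rw [Subgroup.coe_one, map_one]
  map_mul' σ τ := by
    apply Subtype.ext
    show AlgEquiv.restrictNormalHom L ((σ * τ : ↥(A.decompositionSubgroup K)) : Ω ≃ₐ[K] Ω) =
      AlgEquiv.restrictNormalHom L (σ : Ω ≃ₐ[K] Ω) * AlgEquiv.restrictNormalHom L (τ : Ω ≃ₐ[K] Ω)
    rw [Subgroup.coe_mul, map_mul]

theorem decompRestrict_coe (σ : ↥(A.decompositionSubgroup K)) :
    ((decompRestrict A L σ : (sub A (L := L)).decompositionSubgroup K) : L ≃ₐ[K] L) =
      AlgEquiv.restrictNormalHom L (σ : Ω ≃ₐ[K] Ω) := rfl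

theorem apply_eq_of_mem_ker_decompRestrict {σ : ↥(A.decompositionSubgroup K)}
    (hσ : σ ∈ (decompRestrict A L).ker) (x : Ω) (hx : x ∈ L) : (σ : Ω ≃ₐ[K] Ω) x = x := by
  have h1 : AlgEquiv.restrictNormalHom L (σ : Ω ≃ₐ[K] Ω) = 1 := by
    have := congrArg (fun g : ↥((sub A (L := L)).decompositionSubgroup K) =>
      (g : L ≃ₐ[K] L)) (MonoidHom.mem_ker.1 hσ)
    exact this
  have h2 := restrictNormalHom_apply_coe L (σ : Ω ≃ₐ[K] Ω) ⟨x, hx⟩
  rw [h1] at h2
  exact h2.symm

end Restrict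

section Concrete

open Fermat.Agent.GL.Local.ComapDVR Fermat.Agent.S05

variable (P : ValuationSubring Qb) {q : ℕ}

/-- **The tame relation on `G_ℚ`** together with commutativity of the image of inertia. -/
theorem map_conj_eq_pow_and_commute_GQ (hq : q.Prime) (hP : P.LiesOverPrime q)
    {φ : GQ} (hφ : P.IsFrobeniusAt φ q)
    {H : Type*} [Group H] (f : GQ →* H)
    (hf : ∃ L : IntermediateField ℚ Qb, FiniteDimensional ℚ L ∧
      ∀ σ : GQ, (∀ x ∈ L, σ x = x) → f σ = 1)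
    (p : ℕ) [Fact p.Prime] (hpq : p ≠ q)
    (hp : IsPGroup p ((P.inertiaSubgroupIn ℚ).map f)) :
    (∀ σ ∈ P.inertiaSubgroupIn ℚ, f (φ * σ * φ⁻¹) = f σ ^ q) ∧
      (∀ σ ∈ P.inertiaSubgroupIn ℚ, ∀ τ ∈ P.inertiaSubgroupIn ℚ, f σ * f τ = f τ * f σ) := by
  obtain ⟨L₀, hL₀, hker⟩ := hf
  have hA : ((q : ℕ) : Qb) ∈ P.nonunits := hP
  haveI : Fact q.Prime := ⟨hq⟩
  haveI : Algebra.IsAlgebraic ℚ Qb := AlgebraicClosure.isAlgebraic ℚ
  haveI : IsAlgClosure ℚ Qb := ⟨inferInstance, inferInstance⟩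
  haveI : Normal ℚ Qb := IsAlgClosure.normal ℚ Qb
  let L : IntermediateField ℚ Qb := IntermediateField.normalClosure ℚ L₀ Qb
  haveI hLn : Normal ℚ L := normalClosure.normal ℚ L₀ Qb
  haveI hLf : FiniteDimensional ℚ L := normalClosure.is_finiteDimensional ℚ L₀ Qb
  have hle : L₀ ≤ L := L₀.le_normalClosure
  obtain ⟨π, hπ0, hπ, hval⟩ := exists_uniformizer (L := L) P hq hA
  haveI hdvr : IsDiscreteValuationRing (sub P (L := L)) :=
    isDiscreteValuationRing_sub P hπ hπ0 hval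
  have hchar : ((q : ℕ) : sub P (L := L)) ∈ IsLocalRing.maximalIdeal (sub P (L := L)) := by
    rw [IsLocalRing.mem_maximalIdeal, mem_nonunits_iff, isUnit_sub_iff]
    have h1 : algebraMap L Qb (((q : ℕ) : sub P (L := L)) : L) = ((q : ℕ) : Qb) := by
      simp
    rw [h1]
    exact ((P.mem_nonunits_iff).1 hA).ne
  haveI : Finite ↥((sub P (L := L)).decompositionSubgroup ℚ) := inferInstance
  -- the data of the abstract lemma
  set θ := decompRestrict P L with hθ
  haveI hJn : (P.inertiaSubgroup ℚ).Normal := by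
    unfold ValuationSubring.inertiaSubgroup
    exact MonoidHom.normal_ker _
  have hφD : φ ∈ P.decompositionSubgroup ℚ := hφ.mem_decompositionSubgroup
  -- inertia acts trivially on the residue field of `P ∩ L`
  have hJ : ∀ s ∈ P.inertiaSubgroup ℚ, ∀ x : sub P (L := L),
      θ s • x - x ∈ IsLocalRing.maximalIdeal (sub P (L := L)) := by
    intro s hs x
    have hsI : (s : GQ) ∈ P.inertiaSubgroupIn ℚ := ⟨s, hs, rfl⟩
    have hmem := restrictNormalHom_mem_inertiaSubgroup P L hsI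
    exact inertiaSubgroup_smul_sub_mem P L ⟨θ s, hmem⟩ x
  -- Frobenius
  have hφ' : ∀ x : sub P (L := L),
      θ ⟨φ, hφD⟩ • x - x ^ q ∈ IsLocalRing.maximalIdeal (sub P (L := L)) := by
    intro x
    have hxP : algebraMap L Qb (x : L) ∈ P := (mem_sub_iff P (x : L)).1 x.2
    have h1 : φ (algebraMap L Qb (x : L)) - (algebraMap L Qb (x : L)) ^ q ∈ P.nonunits :=
      Fermat.Agent.GP.Loc.TWLocal.frob_apply_sub_pow_mem_nonunits P hφ hxP
    have h2 : (AlgEquiv.restrictNormalHom L φ (x : L) - (x : L) ^ q : L) ∈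
        (sub P (L := L)).nonunits := by
      rw [mem_nonunits_sub_iff, map_sub, map_pow,
        show algebraMap L Qb (AlgEquiv.restrictNormalHom L φ (x : L)) = φ ((x : L) : Qb) from
          restrictNormalHom_apply_coe L φ (x : L)]
      exact h1
    rw [ValuationSubring.mem_nonunits_iff_exists_mem_maximalIdeal] at h2
    obtain ⟨h3, h4⟩ := h2
    exact h4
  -- `f` on the decomposition group
  set fD : ↥(P.decompositionSubgroup ℚ) →* H := f.comp (P.decompositionSubgroup ℚ).subtype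
    with hfD
  have hkerD : θ.ker ≤ fD.ker := by
    intro σ hσ
    rw [MonoidHom.mem_ker, hfD, MonoidHom.comp_apply]
    exact hker _ fun x hx => apply_eq_of_mem_ker_decompRestrict P L hσ x (hle hx)
  have hmapJ : (P.inertiaSubgroup ℚ).map fD = (P.inertiaSubgroupIn ℚ).map f := by
    rw [hfD, ← Subgroup.map_map]
    rfl
  have hpJ : IsPGroup p ((P.inertiaSubgroup ℚ).map fD) := by rw [hmapJ]; exact hp
  obtain ⟨h1, h2⟩ := map_conj_eq_pow_of_hom (O := sub P (L := L)) q hchar p hpq θ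
    (P.inertiaSubgroup ℚ) hJ ⟨φ, hφD⟩ hφ' fD hkerD hpJ
  refine ⟨?_, ?_⟩
  · rintro _ ⟨s, hs, rfl⟩
    exact h1 s hs
  · rintro _ ⟨s, hs, rfl⟩ _ ⟨t, ht, rfl⟩
    exact h2 s hs t ht

/-- **The tame relation on `G_ℚ`**: `f (φ σ φ⁻¹) = f σ ^ q` for `σ ∈ I_P`, `φ` a Frobenius at
`P ∣ q`, when `f` has finite level and `f(I_P)` is a `p`-group, `p ≠ q`. -/
theorem map_conj_eq_pow_GQ (hq : q.Prime) (hP : P.LiesOverPrime q)
    {φ : GQ} (hφ : P.IsFrobeniusAt φ q)
    {H : Type*} [Group H] (f : GQ →* H)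
    (hf : ∃ L : IntermediateField ℚ Qb, FiniteDimensional ℚ L ∧
      ∀ σ : GQ, (∀ x ∈ L, σ x = x) → f σ = 1)
    (p : ℕ) [Fact p.Prime] (hpq : p ≠ q)
    (hp : IsPGroup p ((P.inertiaSubgroupIn ℚ).map f))
    {σ : GQ} (hσ : σ ∈ P.inertiaSubgroupIn ℚ) : f (φ * σ * φ⁻¹) = f σ ^ q :=
  (map_conj_eq_pow_and_commute_GQ P hq hP hφ f hf p hpq hp).1 σ hσ

/-- the image of inertia is commutative. -/
theorem map_commute_GQ (hq : q.Prime) (hP : P.LiesOverPrime q)
    {φ : GQ} (hφ : P.IsFrobeniusAt φ q)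
    {H : Type*} [Group H] (f : GQ →* H)
    (hf : ∃ L : IntermediateField ℚ Qb, FiniteDimensional ℚ L ∧
      ∀ σ : GQ, (∀ x ∈ L, σ x = x) → f σ = 1)
    (p : ℕ) [Fact p.Prime] (hpq : p ≠ q)
    (hp : IsPGroup p ((P.inertiaSubgroupIn ℚ).map f))
    {σ τ : GQ} (hσ : σ ∈ P.inertiaSubgroupIn ℚ) (hτ : τ ∈ P.inertiaSubgroupIn ℚ) :
    f σ * f τ = f τ * f σ :=
  (map_conj_eq_pow_and_commute_GQ P hq hP hφ f hf p hpq hp).2 σ hσ τ hτ

end Concrete

end Fermat.Agent.GB.E2.TameRelGQ
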