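/-
GATE-B / ENGINE leaf E2, part (2) (helper67): **the exact tame relation for an adic Galois
representation**.

`A` a Noetherian local ring of residue characteristic `p`, `ρ : GaloisRepAdic A`, `P` a place of
`ℚ̄` over a prime `q ≠ p`, `φ` a Frobenius element at `P`.  If `ρ` is residually unramified at `P`
(`ρ s ≡ 1 mod 𝔪` for `s ∈ I_P`) then

  `ρ (φ s φ⁻¹) = ρ s ^ q`   for EVERY `s ∈ I_P`   (`tame_relation`),

and `ρ(I_P)` is commutative (`commute_of_mem_inertia`).

Proof: `ρ mod 𝔪 ^ n` has finite level and maps `I_P` to a group of exponent `p ^ n`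
(`(1 + Y) ^ (p ^ j) ∈ 1 + E_{j+1}` for the filtration `E_k = {T | T V ⊆ 𝔪 ^ k V}` of `End V`);
part (1) `TameRelGQ.map_conj_eq_pow_GQ` gives the relation modulo `𝔪 ^ n`; Krull.

This is the binder `htame` of helper91's `GB/E2/TWDiag.lean` / `GB/Local/TameDiag.lean`, and the
relation `Φ Σ = Σ ^ q Φ` of the tame framed ring for actual Galois representations.
-/
import Mathlib
import Fermat.Agent.GB.E2.TameRelGQ
import Fermat.Agent.GJ.Tate.Carayol
import Fermat.Prelude.Def_GaloisRep_Adic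

set_option autoImplicit false
set_option linter.unusedSectionVars false
set_option linter.style.haveILetI false

open IsLocalRing Module
open Fermat.Agent.Common_helper32

namespace Fermat.Agent.GB.E2.TameRelAdic

/-! ### The `I`-adic filtration of `End V` -/

section Filtration

variable {A : Type*} [CommRing A] (I : Ideal A) (V : Type*) [AddCommGroup V] [Module A V]

/-- `E_k = {T ∈ End V | T V ⊆ I ^ k V}`. -/
def Efil (k : ℕ) : Submodule A (Module.End A V) where
  carrier := {T | ∀ v, T v ∈ (I ^ k) • (⊤ : Submodule A V)}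
  add_mem' := fun {S T} hS hT v => by
    rw [LinearMap.add_apply]
    exact Submodule.add_mem _ (hS v) (hT v)
  zero_mem' := fun v => by
    rw [LinearMap.zero_apply]
    exact Submodule.zero_mem _
  smul_mem' := fun c T hT v => by
    rw [LinearMap.smul_apply]
    exact Submodule.smul_mem _ c (hT v)

variable {I V}

theorem mem_Efil {k : ℕ} {T : Module.End A V} :
    T ∈ Efil I V k ↔ ∀ v, T v ∈ (I ^ k) • (⊤ : Submodule A V) := Iff.rfl

theorem Efil_mono {j k : ℕ} (h : j ≤ k) : Efil I V k ≤ Efil I V j := fun _ hT v =>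
  Submodule.smul_mono_left (Ideal.pow_le_pow_right h) (hT v)

theorem mem_Efil_zero (T : Module.End A V) : T ∈ Efil I V 0 := fun v => by
  rw [pow_zero, Ideal.one_eq_top, Submodule.top_smul]
  trivial

theorem mul_mem_Efil {j k : ℕ} {S T : Module.End A V} (hS : S ∈ Efil I V j)
    (hT : T ∈ Efil I V k) : S * T ∈ Efil I V (j + k) := by
  intro v
  rw [Module.End.mul_apply]
  have key : ∀ w ∈ (I ^ k) • (⊤ : Submodule A V), S w ∈ (I ^ (j + k)) • (⊤ : Submodule A V) := by
    intro w hw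
    refine Submodule.smul_induction_on hw ?_ ?_
    · intro a ha x _
      rw [map_smul, add_comm, pow_add, Submodule.mul_smul]
      exact Submodule.smul_mem_smul ha (hS x)
    · intro x y hx hy
      rw [map_add]
      exact Submodule.add_mem _ hx hy
  exact key _ (hT v)

theorem pow_mem_Efil {k : ℕ} {Y : Module.End A V} (hY : Y ∈ Efil I V k) (i : ℕ) :
    Y ^ i ∈ Efil I V (i * k) := by
  induction i with
  | zero => rw [zero_mul]; exact mem_Efil_zero _
  | succ i ih =>
    rw [pow_succ, Nat.succ_mul]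
    exact mul_mem_Efil ih hY

theorem natCast_smul_mem_Efil {p : ℕ} (hp : (p : A) ∈ I) {k : ℕ} {T : Module.End A V}
    (hT : T ∈ Efil I V k) : (p : A) • T ∈ Efil I V (k + 1) := by
  intro v
  rw [LinearMap.smul_apply, pow_succ', Submodule.mul_smul]
  exact Submodule.smul_mem_smul hp (hT v)

/-- `(1 + Y) ^ p ∈ 1 + E_{k+1}` for `Y ∈ E_k`, `k ≥ 1`, `p ∈ I` prime. -/
theorem add_pow_prime_sub_one_mem {p : ℕ} (hp : p.Prime) (hpI : (p : A) ∈ I) {k : ℕ}
    (hk : 1 ≤ k) {Y : Module.End A V} (hY : Y ∈ Efil I V k) :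
    (1 + Y) ^ p - 1 ∈ Efil I V (k + 1) := by
  have hexp : (1 + Y) ^ p - 1 =
      ∑ m ∈ Finset.range p, Y ^ (m + 1) * 1 ^ (p - (m + 1)) * ((p.choose (m + 1) : ℕ) :
        Module.End A V) := by
    rw [add_comm 1 Y, (Commute.one_right Y).add_pow p, Finset.sum_range_succ']
    simp
  rw [hexp]
  refine Submodule.sum_mem _ fun m hm => ?_
  rw [Finset.mem_range] at hm
  rw [one_pow, mul_one]
  rcases Nat.lt_or_ge (m + 1) p with hlt | hge
  · -- `p ∣ choose p (m+1)`
    obtain ⟨c, hc⟩ := hp.dvd_choose_self (Nat.succ_ne_zero m) hlt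
    have e : Y ^ (m + 1) * ((p.choose (m + 1) : ℕ) : Module.End A V) =
        (p : A) • (Y ^ (m + 1) * ((c : ℕ) : Module.End A V)) := by
      rw [hc, Nat.cast_mul, ← mul_assoc, (Nat.cast_commute p (Y ^ (m + 1))).eq.symm, mul_assoc,
        ← nsmul_eq_mul, Nat.cast_smul_eq_nsmul]
    rw [e]
    refine natCast_smul_mem_Efil hpI ?_
    have h1 : Y ^ (m + 1) ∈ Efil I V k := by
      refine Efil_mono ?_ (pow_mem_Efil hY (m + 1))
      calc k = 1 * k := (one_mul k).symm
        _ ≤ (m + 1) * k := Nat.mul_le_mul_right k (Nat.succ_le_succ (Nat.zero_le m))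
    have := mul_mem_Efil h1 (mem_Efil_zero (I := I) ((c : ℕ) : Module.End A V))
    rwa [add_zero] at this
  · -- `m + 1 = p`
    have hmp : m + 1 = p := le_antisymm hm hge
    rw [hmp, Nat.choose_self, Nat.cast_one, mul_one]
    refine Efil_mono ?_ (pow_mem_Efil hY p)
    calc k + 1 ≤ k + k := Nat.add_le_add_left hk k
      _ = 2 * k := (two_mul k).symm
      _ ≤ p * k := Nat.mul_le_mul_right k hp.two_le

/-- `(1 + Y) ^ (p ^ j) ∈ 1 + E_{j+1}` for `Y ∈ E_1`. -/
theorem add_pow_prime_pow_sub_one_mem {p : ℕ} (hp : p.Prime) (hpI : (p : A) ∈ I)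
    {Y : Module.End A V} (hY : Y ∈ Efil I V 1) (j : ℕ) :
    (1 + Y) ^ (p ^ j) - 1 ∈ Efil I V (j + 1) := by
  induction j with
  | zero => rw [pow_zero, pow_one, add_sub_cancel_left]; exact hY
  | succ j ih =>
    have e : (1 + Y) ^ (p ^ (j + 1)) = (1 + ((1 + Y) ^ (p ^ j) - 1)) ^ p := by
      rw [add_sub_cancel, pow_succ, pow_mul]
    rw [e]
    exact add_pow_prime_sub_one_mem hp hpI (Nat.succ_le_succ (Nat.zero_le j)) ih

end Filtration

/-! ### Reduction modulo `𝔪 ^ n` as a group homomorphism -/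

section Reduction

open Fermat.Agent.GJ.Tate.Carayol

variable {A : Type} [CommRing A] [IsLocalRing A] (ρ : GaloisRepAdic A)

/-- `ρ mod 𝔪 ^ n` in matrix form, as a homomorphism to a GROUP. -/
noncomputable def redUnits (n : ℕ) :
    GQ →* (Matrix (Free.ChooseBasisIndex A ρ.V) (Free.ChooseBasisIndex A ρ.V)
      (A ⧸ maximalIdeal A ^ n))ˣ :=
  ((redMat (maximalIdeal A ^ n) ρ.V).toMonoidHom.comp ρ.ρ).toHomUnits

theorem redUnits_val (n : ℕ) (σ : GQ) :
    ((redUnits ρ n σ : (Matrix _ _ (A ⧸ maximalIdeal A ^ n))ˣ) : Matrix _ _ _) =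
      redMat (maximalIdeal A ^ n) ρ.V (ρ.ρ σ) := rfl

theorem redUnits_level (n : ℕ) :
    ∃ L : IntermediateField ℚ Qb, FiniteDimensional ℚ L ∧
      ∀ σ : GQ, (∀ x ∈ L, σ x = x) → redUnits ρ n σ = 1 := by
  obtain ⟨L, hL, h1⟩ := ρ.isAdicContinuous n
  refine ⟨L, hL, fun σ hσ => ?_⟩
  apply Units.ext
  rw [redUnits_val, Units.val_one]
  exact redMat_eq_one_of_sub_mem _ _ (h1 σ hσ)

/-- an endomorphism with all reductions zero is zero (Krull). -/
theorem eq_zero_of_forall_redMat_eq_zero [IsNoetherianRing A] (X : Module.End A ρ.V)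
    (h : ∀ n : ℕ, redMat (maximalIdeal A ^ n) ρ.V X = 0) : X = 0 := by
  classical
  refine (Free.chooseBasis A ρ.V).ext fun j => ?_
  rw [LinearMap.zero_apply]
  refine (Free.chooseBasis A ρ.V).repr.injective ?_
  ext i
  rw [map_zero, Finsupp.zero_apply]
  have hmem : (Free.chooseBasis A ρ.V).repr (X (Free.chooseBasis A ρ.V j)) i ∈
      (⨅ n : ℕ, maximalIdeal A ^ n) := by
    rw [Ideal.mem_iInf]
    intro n
    have := congrFun (congrFun (h n) i) j
    rw [redMat_apply, Matrix.zero_apply] at this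
    exact Ideal.Quotient.eq_zero_iff_mem.mp this
  rw [Ideal.iInf_pow_eq_bot_of_isLocalRing _ (maximalIdeal.isMaximal A).ne_top] at hmem
  exact hmem

end Reduction

/-! ### The exact tame relation -/

section Main

open Fermat.Agent.GJ.Tate.Carayol Fermat.Agent.GB.E2.TameRelGQ

variable {A : Type} [CommRing A] [IsLocalRing A] (ρ : GaloisRepAdic A)
variable (P : ValuationSubring Qb) {p q : ℕ}

/-- the image of inertia under `ρ mod 𝔪 ^ n` is a `p`-group. -/
theorem isPGroup_map_inertia (hp : p.Prime) (hpA : (p : A) ∈ maximalIdeal A)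
    (hunr : ∀ s ∈ P.inertiaSubgroupIn ℚ, ∀ v : ρ.V,
      ρ.ρ s v - v ∈ maximalIdeal A • (⊤ : Submodule A ρ.V)) (n : ℕ) :
    IsPGroup p ((P.inertiaSubgroupIn ℚ).map (redUnits ρ n)) := by
  rintro ⟨_, s, hs, rfl⟩
  refine ⟨n, ?_⟩
  apply Subtype.ext
  rw [Subgroup.coe_pow, Subgroup.coe_one]
  apply Units.ext
  rw [Units.val_pow_eq_pow_val, Units.val_one, redUnits_val, ← map_pow]
  refine redMat_eq_one_of_sub_mem _ _ fun v => ?_
  have hY : ρ.ρ s - 1 ∈ Efil (maximalIdeal A) ρ.V 1 := by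
    intro v
    rw [LinearMap.sub_apply, Module.End.one_apply, pow_one]
    exact hunr s hs v
  have h1 := add_pow_prime_pow_sub_one_mem hp hpA hY n
  rw [add_sub_cancel] at h1
  have h2 := Efil_mono (Nat.le_succ n) h1 v
  rwa [LinearMap.sub_apply, Module.End.one_apply] at h2

/-- **The exact tame relation** `ρ (φ s φ⁻¹) = ρ s ^ q` on inertia, for a residually unramified
adic representation over a Noetherian local ring of residue characteristic `p ≠ q`. -/
theorem tame_relation [IsNoetherianRing A] (hp : p.Prime) (hpA : (p : A) ∈ maximalIdeal A)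
    (hq : q.Prime) (hpq : p ≠ q) (hP : P.LiesOverPrime q) {φ : GQ} (hφ : P.IsFrobeniusAt φ q)
    (hunr : ∀ s ∈ P.inertiaSubgroupIn ℚ, ∀ v : ρ.V,
      ρ.ρ s v - v ∈ maximalIdeal A • (⊤ : Submodule A ρ.V)) :
    ∀ s ∈ P.inertiaSubgroupIn ℚ, ρ.ρ (φ * s * φ⁻¹) = ρ.ρ s ^ q := by
  intro s hs
  haveI : Fact p.Prime := ⟨hp⟩
  rw [← sub_eq_zero]
  refine eq_zero_of_forall_redMat_eq_zero ρ _ fun n => ?_
  have h1 := map_conj_eq_pow_GQ P hq hP hφ (redUnits ρ n) (redUnits_level ρ n) p hpq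
    (isPGroup_map_inertia ρ P hp hpA hunr n) hs
  have h2 := congrArg Units.val h1
  rw [Units.val_pow_eq_pow_val, redUnits_val, redUnits_val, ← map_pow] at h2
  rw [map_sub, h2, sub_self]

/-- `ρ(I_P)` is commutative. -/
theorem commute_of_mem_inertia [IsNoetherianRing A] (hp : p.Prime)
    (hpA : (p : A) ∈ maximalIdeal A)
    (hq : q.Prime) (hpq : p ≠ q) (hP : P.LiesOverPrime q) {φ : GQ} (hφ : P.IsFrobeniusAt φ q)
    (hunr : ∀ s ∈ P.inertiaSubgroupIn ℚ, ∀ v : ρ.V,
      ρ.ρ s v - v ∈ maximalIdeal A • (⊤ : Submodule A ρ.V)) :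
    ∀ s ∈ P.inertiaSubgroupIn ℚ, ∀ t ∈ P.inertiaSubgroupIn ℚ,
      ρ.ρ s * ρ.ρ t = ρ.ρ t * ρ.ρ s := by
  intro s hs t ht
  haveI : Fact p.Prime := ⟨hp⟩
  rw [← sub_eq_zero]
  refine eq_zero_of_forall_redMat_eq_zero ρ _ fun n => ?_
  have h1 := map_commute_GQ P hq hP hφ (redUnits ρ n) (redUnits_level ρ n) p hpq
    (isPGroup_map_inertia ρ P hp hpA hunr n) hs ht
  have h2 := congrArg Units.val h1
  simp only [Units.val_mul, redUnits_val] at h2
  rw [map_sub, map_mul, map_mul, h2, sub_self]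

end Main

end Fermat.Agent.GB.E2.TameRelAdic
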