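/-
GATE-B / ENGINE leaf E2, part (4) (helper67), node GB-E2-TAMEPAIR: **the tame pair `(Φ, Σ)` of an
adic representation at a prime `q ≠ p`** — the seam E2 → B1 (`GB/Local/ABig`, `TamePoint`) / B9.

`ρ : GaloisRepAdic A`, `A` Noetherian local, `ρ.DetIsCyclotomic p`, `P ∣ q ≠ p`, `φ` a Frobenius
element at `P`, `s ∈ I_P`; `ρ` residually unramified at `P` (`hunr`).

* `det_eq_one_of_mem_inertia` : `det ρ(s) = 1`;
* `det_eq_natCast_of_isFrobeniusAt` : `det ρ(φ) = q`;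
* `frob_mul_eq` : `ρ(φ) ρ(s) = ρ(s) ^ q ρ(φ)` (from `TameRelAdic.tame_relation`);
* `toMat_*` : the same for the matrices `Φ = toMat ρ b φ`, `Σ = toMat ρ b s`, with the residual
  congruences `Σ ≡ 1`, `Φ ≡ u` (if `ρ̄(φ)` is the scalar `u`);
* `pair_of_hom` : the same for `r φ`, `r s` where `r = conjMat g (mapMat f (toMat ρ b))`
  (`f : A → B` local, `g ∈ GL₂(B)`) — e.g. the framed universal matrices;
* `isTamePair_of_hom` : helper6's `ABig.IsTamePair d (r φ) (r s)`.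
NEW file; imports only.
-/
import Mathlib
import Fermat.Agent.GB.E2.TameRelAdic
import Fermat.Agent.GB.E2.TWDiag
import Fermat.Agent.GJ.Cyc.FrobCyc
import Fermat.Agent.GB.Local.ABig
import Fermat.Agent.S53_helper35.MatDict
import Fermat.Prelude.Def_GaloisRep_LocalConditions

set_option autoImplicit false
set_option linter.unusedSectionVars false

open IsLocalRing Module
open Fermat.Agent.Common_helper32

namespace Fermat.Agent.GB.E2.TamePair

open Fermat.Agent.GB.E2.TameRelAdic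
open Fermat.Agent.S53_helper35 hiding GQ

section Det

variable {A : Type} [CommRing A] [IsLocalRing A] [IsNoetherianRing A] (ρ : GaloisRepAdic A)
variable (P : ValuationSubring Qb) {p q : ℕ}

/-- Krull: an element of `(p ^ n)` for all `n` is zero (`p ∈ 𝔪`). -/
theorem eq_zero_of_forall_mem_span_pow (hpA : (p : A) ∈ maximalIdeal A) (x : A)
    (h : ∀ n : ℕ, x ∈ Ideal.span {((p ^ n : ℕ) : A)}) : x = 0 := by
  have hmem : x ∈ (⨅ n : ℕ, maximalIdeal A ^ n) := by
    rw [Ideal.mem_iInf]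
    intro n
    obtain ⟨c, hc⟩ := Ideal.mem_span_singleton'.mp (h n)
    rw [← hc, Nat.cast_pow]
    exact Ideal.mul_mem_left _ _ (Ideal.pow_mem_pow hpA n)
  rwa [Ideal.iInf_pow_eq_bot_of_isLocalRing _ (maximalIdeal.isMaximal A).ne_top] at hmem

/-- **`det ρ = 1` on inertia at `q ≠ p`.** -/
theorem det_eq_one_of_mem_inertia (hρ : ρ.DetIsCyclotomic p) (hp : p.Prime) (hq : q.Prime)
    (hpq : p ≠ q) (hP : P.LiesOverPrime q) {s : GQ} (hs : s ∈ P.inertiaSubgroupIn ℚ) :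
    LinearMap.det (ρ.ρ s) = 1 := by
  rw [← sub_eq_zero]
  refine eq_zero_of_forall_mem_span_pow hρ.1 _ fun n => ?_
  have h := hρ.2 n s 1 (fun μ hμ => by
    rw [pow_one]
    refine Fermat.Agent.GJ.Cyc.inertia_rootOfUnity P q hq hP s hs (p ^ n) ?_ μ hμ
    intro hdvd
    exact hpq ((Nat.prime_dvd_prime_iff_eq hq hp).mp (hq.dvd_of_dvd_pow hdvd)).symm)
  rwa [Nat.cast_one] at h

/-- **`det ρ(Frob_q) = q`.** -/
theorem det_eq_natCast_of_isFrobeniusAt (hρ : ρ.DetIsCyclotomic p) (hp : p.Prime) (hq : q.Prime)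
    (hpq : p ≠ q) (hP : P.LiesOverPrime q) {φ : GQ} (hφ : P.IsFrobeniusAt φ q) :
    LinearMap.det (ρ.ρ φ) = (q : A) := by
  rw [← sub_eq_zero]
  refine eq_zero_of_forall_mem_span_pow hρ.1 _ fun n => ?_
  refine hρ.2 n φ q (fun μ hμ => ?_)
  refine Fermat.Agent.GJ.Cyc.frob_rootOfUnity P q hq hP φ hφ (p ^ n) ?_ μ hμ
  intro hdvd
  exact hpq ((Nat.prime_dvd_prime_iff_eq hq hp).mp (hq.dvd_of_dvd_pow hdvd)).symm

/-- **the tame relation in product form**: `ρ(φ) ρ(s) = ρ(s) ^ q ρ(φ)`. -/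
theorem frob_mul_eq (hp : p.Prime) (hpA : (p : A) ∈ maximalIdeal A)
    (hq : q.Prime) (hpq : p ≠ q) (hP : P.LiesOverPrime q) {φ : GQ} (hφ : P.IsFrobeniusAt φ q)
    (hunr : ∀ s ∈ P.inertiaSubgroupIn ℚ, ∀ v : ρ.V,
      ρ.ρ s v - v ∈ maximalIdeal A • (⊤ : Submodule A ρ.V))
    {s : GQ} (hs : s ∈ P.inertiaSubgroupIn ℚ) :
    ρ.ρ φ * ρ.ρ s = ρ.ρ s ^ q * ρ.ρ φ := by
  have h := tame_relation ρ P hp hpA hq hpq hP hφ hunr s hs
  rw [← h, ← map_mul, ← map_mul, inv_mul_cancel_right]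

end Det

/-! ### matrices -/

section Mat

variable {A : Type} [CommRing A] [IsLocalRing A] [IsNoetherianRing A] (ρ : GaloisRepAdic A)
variable (b : Module.Basis (Fin 2) A ρ.V)
variable (P : ValuationSubring Qb) {p q : ℕ}

theorem det_toMat (σ : GQ) : (toMat ρ b σ).det = LinearMap.det (ρ.ρ σ) := by
  rw [toMat_apply, LinearMap.det_toMatrix]

theorem toMat_frob_mul_eq (hp : p.Prime) (hpA : (p : A) ∈ maximalIdeal A)
    (hq : q.Prime) (hpq : p ≠ q) (hP : P.LiesOverPrime q) {φ : GQ} (hφ : P.IsFrobeniusAt φ q)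
    (hunr : ∀ s ∈ P.inertiaSubgroupIn ℚ, ∀ v : ρ.V,
      ρ.ρ s v - v ∈ maximalIdeal A • (⊤ : Submodule A ρ.V))
    {s : GQ} (hs : s ∈ P.inertiaSubgroupIn ℚ) :
    toMat ρ b φ * toMat ρ b s = toMat ρ b s ^ q * toMat ρ b φ := by
  have h1 : ρ.ρ (φ * s) = ρ.ρ (s ^ q * φ) := by
    rw [map_mul, map_mul, map_pow]
    exact frob_mul_eq ρ P hp hpA hq hpq hP hφ hunr hs
  have h2 : toMat ρ b (φ * s) = toMat ρ b (s ^ q * φ) := by
    rw [toMat_apply, toMat_apply, h1]
  rwa [map_mul, map_mul, map_pow] at h2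

/-- entries of `toMat ρ b σ - c • 1` lie in `𝔪` as soon as `ρ σ v - c • v ∈ 𝔪 V`. -/
theorem toMat_sub_smul_one_mem {σ : GQ} (c : A)
    (h : ∀ v : ρ.V, ρ.ρ σ v - c • v ∈ maximalIdeal A • (⊤ : Submodule A ρ.V)) (i j : Fin 2) :
    (toMat ρ b σ - c • (1 : Matrix (Fin 2) (Fin 2) A)) i j ∈ maximalIdeal A := by
  have h1 := repr_mem_of_mem_smul_top b (maximalIdeal A) (h (b j)) i
  rw [map_sub, map_smul, Finsupp.sub_apply, Finsupp.smul_apply, Module.Basis.repr_self,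
    smul_eq_mul] at h1
  rw [Matrix.sub_apply, Matrix.smul_apply, toMat_apply, LinearMap.toMatrix_apply, smul_eq_mul,
    Matrix.one_apply]
  convert h1 using 2
  rw [Finsupp.single_apply]
  by_cases hij : i = j
  · rw [if_pos hij, if_pos hij.symm]
  · rw [if_neg hij, if_neg (Ne.symm hij)]

end Mat

/-! ### conjugates and base changes: the framed universal matrices -/

section Hom

variable {A : Type} [CommRing A] [IsLocalRing A] [IsNoetherianRing A] (ρ : GaloisRepAdic A)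
variable (b : Module.Basis (Fin 2) A ρ.V)
variable (P : ValuationSubring Qb) {p q : ℕ}
variable {B : Type} [CommRing B] [IsLocalRing B] (f : A →+* B) (g : GL (Fin 2) B)

/-- `r = g · f(toMat ρ b) · g⁻¹`. -/
noncomputable abbrev conjMap : GQ →* Matrix (Fin 2) (Fin 2) B :=
  conjMat g (mapMat f (toMat ρ b))

theorem det_conjMap (σ : GQ) : (conjMap ρ b f g σ).det = f (LinearMap.det (ρ.ρ σ)) := by
  rw [conjMat_apply, Matrix.det_mul, Matrix.det_mul, mapMat_apply, mul_right_comm,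
    ← Matrix.det_mul, ← Units.val_mul, mul_inv_cancel, Units.val_one, Matrix.det_one, one_mul,
    ← RingHom.mapMatrix_apply, ← RingHom.map_det, det_toMat]

/-- entries of `g (M.map f) g⁻¹ - f c • 1` lie in `𝔪_B` if those of `M - c • 1` lie in `𝔪_A`. -/
theorem conj_map_sub_smul_one_mem (hf : IsLocalHom f) (M : Matrix (Fin 2) (Fin 2) A) (c : A)
    (h : ∀ i j, (M - c • (1 : Matrix (Fin 2) (Fin 2) A)) i j ∈ maximalIdeal A) (i j : Fin 2) :
    ((g : Matrix (Fin 2) (Fin 2) B) * M.map f * ((g⁻¹ : GL (Fin 2) B) : Matrix (Fin 2) (Fin 2) B)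
      - f c • (1 : Matrix (Fin 2) (Fin 2) B)) i j ∈ maximalIdeal B := by
  have e : (g : Matrix (Fin 2) (Fin 2) B) * M.map f *
      ((g⁻¹ : GL (Fin 2) B) : Matrix (Fin 2) (Fin 2) B) - f c • (1 : Matrix (Fin 2) (Fin 2) B) =
      (g : Matrix (Fin 2) (Fin 2) B) * (M - c • (1 : Matrix (Fin 2) (Fin 2) A)).map f *
        ((g⁻¹ : GL (Fin 2) B) : Matrix (Fin 2) (Fin 2) B) := by
    have h1 : (M - c • (1 : Matrix (Fin 2) (Fin 2) A)).map f =
        M.map f - f c • (1 : Matrix (Fin 2) (Fin 2) B) := by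
      ext i j
      simp only [Matrix.map_apply, Matrix.sub_apply, Matrix.smul_apply, Matrix.one_apply,
        smul_eq_mul, map_sub, map_mul]
      split_ifs <;> simp
    rw [h1, Matrix.mul_sub, Matrix.sub_mul, Matrix.mul_smul, Matrix.smul_mul, Matrix.mul_one,
      ← Units.val_mul, mul_inv_cancel, Units.val_one]
  rw [e]
  have hN : ∀ i j, ((M - c • (1 : Matrix (Fin 2) (Fin 2) A)).map f) i j ∈ maximalIdeal B := by
    intro i j
    rw [Matrix.map_apply]
    exact map_nonunit f _ (h i j)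
  rw [Matrix.mul_apply]
  refine Ideal.sum_mem _ fun k _ => ?_
  refine Ideal.mul_mem_right _ _ ?_
  rw [Matrix.mul_apply]
  exact Ideal.sum_mem _ fun l _ => Ideal.mul_mem_left _ _ (hN l k)

/-- **the tame pair of `r = g · f(toMat ρ b) · g⁻¹`**: relation, determinants, residual
congruences. -/
theorem pair_of_hom (hf : IsLocalHom f) (hρ : ρ.DetIsCyclotomic p) (hp : p.Prime) (hq : q.Prime)
    (hpq : p ≠ q) (hP : P.LiesOverPrime q) {φ : GQ} (hφ : P.IsFrobeniusAt φ q)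
    (hunr : ∀ s ∈ P.inertiaSubgroupIn ℚ, ∀ v : ρ.V,
      ρ.ρ s v - v ∈ maximalIdeal A • (⊤ : Submodule A ρ.V))
    {s : GQ} (hs : s ∈ P.inertiaSubgroupIn ℚ) :
    conjMap ρ b f g φ * conjMap ρ b f g s = conjMap ρ b f g s ^ q * conjMap ρ b f g φ ∧
      (conjMap ρ b f g φ).det = (q : B) ∧ (conjMap ρ b f g s).det = 1 ∧
      ∀ i j, (conjMap ρ b f g s - 1) i j ∈ maximalIdeal B := by
  refine ⟨?_, ?_, ?_, ?_⟩
  · have h1 : ρ.ρ (φ * s) = ρ.ρ (s ^ q * φ) := by
      rw [map_mul, map_mul, map_pow]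
      exact frob_mul_eq ρ P hp hρ.1 hq hpq hP hφ hunr hs
    have h2 : toMat ρ b (φ * s) = toMat ρ b (s ^ q * φ) := by
      rw [toMat_apply, toMat_apply, h1]
    have h3 : conjMap ρ b f g (φ * s) = conjMap ρ b f g (s ^ q * φ) := by
      rw [conjMat_apply, conjMat_apply, mapMat_apply, mapMat_apply, h2]
    rwa [map_mul, map_mul, map_pow] at h3
  · rw [det_conjMap, det_eq_natCast_of_isFrobeniusAt ρ P hρ hp hq hpq hP hφ, map_natCast]
  · rw [det_conjMap, det_eq_one_of_mem_inertia ρ P hρ hp hq hpq hP hs, map_one]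
  · intro i j
    have h1 := conj_map_sub_smul_one_mem f g hf (toMat ρ b s) 1
      (toMat_sub_smul_one_mem ρ b 1 (fun v => by rw [one_smul]; exact hunr s hs v)) i j
    rwa [map_one, one_smul] at h1

end Hom

/-! ### residual spellings of the hypotheses -/

section Residual

variable {A : Type} [CommRing A] [IsLocalRing A]

/-- `f ⊗ k = c̄ • 1 ⟹ f v - c • v ∈ 𝔪 V`. -/
theorem sub_smul_mem_of_baseChange_eq_smul {V : Type*} [AddCommGroup V] [Module A V]
    (f : Module.End A V) (c : A)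
    (hf : f.baseChange (ResidueField A) = residue A c • (1 : Module.End (ResidueField A) _))
    (v : V) : f v - c • v ∈ maximalIdeal A • (⊤ : Submodule A V) := by
  have h1 : (f - c • (1 : Module.End A V) + 1).baseChange (ResidueField A) = 1 := by
    rw [LinearMap.baseChange_add, LinearMap.baseChange_sub, LinearMap.baseChange_smul, hf,
      LinearMap.baseChange_one]
    have h2 : c • (1 : Module.End (ResidueField A) (TensorProduct A (ResidueField A) V)) =
        residue A c • (1 : Module.End (ResidueField A) _) := by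
      rw [← algebraMap_smul (ResidueField A) c
        (1 : Module.End (ResidueField A) (TensorProduct A (ResidueField A) V)),
        IsLocalRing.ResidueField.algebraMap_eq]
    rw [h2]
    abel
  have h3 := TWDiag.sub_mem_smul_top_of_baseChange_eq_one _ h1 v
  rwa [LinearMap.add_apply, LinearMap.sub_apply, LinearMap.smul_apply, Module.End.one_apply,
    add_sub_cancel_right] at h3

variable (ρ : GaloisRepAdic A) (P : ValuationSubring Qb)

/-- `hunr` from residual unramifiedness (frozen spelling). -/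
theorem hunr_of_residual {q : ℕ} (hres : ρ.residual.IsUnramifiedAt q) (hP : P.LiesOverPrime q) :
    ∀ s ∈ P.inertiaSubgroupIn ℚ, ∀ v : ρ.V,
      ρ.ρ s v - v ∈ maximalIdeal A • (⊤ : Submodule A ρ.V) :=
  fun s hs v => TWDiag.sub_mem_smul_top_of_baseChange_eq_one (ρ.ρ s) (hres P hP s hs) v

/-- `hφu` from `ρ̄(φ) = c̄ • 1`. -/
theorem hscalar_of_residual {φ : GQ} (c : A)
    (h : ρ.residual.ρ φ = residue A c • (1 : Module.End (ResidueField A) ρ.residual.V)) :
    ∀ v : ρ.V, ρ.ρ φ v - c • v ∈ maximalIdeal A • (⊤ : Submodule A ρ.V) :=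
  fun v => sub_smul_mem_of_baseChange_eq_smul (ρ.ρ φ) c h v

end Residual

/-! ### helper6's `IsTamePair` -/

section ABig

open Fermat.Agent.GB.Local.ABig

variable {𝒪 : Type} [CommRing 𝒪] [IsLocalRing 𝒪]
variable {A : Type} [CommRing A] [IsLocalRing A] [IsNoetherianRing A] [Algebra 𝒪 A]
  (ρ : GaloisRepAdic A) (b : Module.Basis (Fin 2) A ρ.V)
variable (P : ValuationSubring Qb) {p : ℕ}
variable {B : Type} [CommRing B] [IsLocalRing B] [Algebra 𝒪 B] (g : GL (Fin 2) B)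

/-- **`(r φ, r s)` is a tame pair** (`r = g · f(toMat ρ b) · g⁻¹`, `f : A → B` a local ring hom
compatible with the structure maps at `u`), for the datum `d = (q, u)`, if `ρ̄(φ)` is the scalar
`u`; together with the tame relation. -/
theorem isTamePair_of_ringHom (f : A →+* B) (d : TameDatum 𝒪) (hf : IsLocalHom f)
    (hfu : f (algebraMap 𝒪 A d.u) = algebraMap 𝒪 B d.u)
    (hρ : ρ.DetIsCyclotomic p) (hp : p.Prime) (hq : d.q.Prime) (hpq : p ≠ d.q)
    (hP : P.LiesOverPrime d.q) {φ : GQ} (hφ : P.IsFrobeniusAt φ d.q)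
    (hunr : ∀ s ∈ P.inertiaSubgroupIn ℚ, ∀ v : ρ.V,
      ρ.ρ s v - v ∈ maximalIdeal A • (⊤ : Submodule A ρ.V))
    (hφu : ∀ v : ρ.V, ρ.ρ φ v - algebraMap 𝒪 A d.u • v ∈ maximalIdeal A • (⊤ : Submodule A ρ.V))
    {s : GQ} (hs : s ∈ P.inertiaSubgroupIn ℚ) :
    IsTamePair d (TamePair.conjMap ρ b f g φ) (TamePair.conjMap ρ b f g s) ∧
      TamePair.conjMap ρ b f g φ * TamePair.conjMap ρ b f g s =
        TamePair.conjMap ρ b f g s ^ d.q * TamePair.conjMap ρ b f g φ := by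
  obtain ⟨h1, h2, h3, h4⟩ := pair_of_hom ρ b P f g hf hρ hp hq hpq hP hφ hunr hs
  refine ⟨⟨h2, h3, fun i j => ?_, h4⟩, h1⟩
  have h5 := conj_map_sub_smul_one_mem f g hf (toMat ρ b φ) (algebraMap 𝒪 A d.u)
    (toMat_sub_smul_one_mem ρ b _ hφu) i j
  rwa [hfu] at h5

/-- the same for a local `𝒪`-algebra hom. -/
theorem isTamePair_of_hom (f : A →ₐ[𝒪] B) (d : TameDatum 𝒪) (hf : IsLocalHom (f : A →+* B))
    (hρ : ρ.DetIsCyclotomic p) (hp : p.Prime) (hq : d.q.Prime) (hpq : p ≠ d.q)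
    (hP : P.LiesOverPrime d.q) {φ : GQ} (hφ : P.IsFrobeniusAt φ d.q)
    (hunr : ∀ s ∈ P.inertiaSubgroupIn ℚ, ∀ v : ρ.V,
      ρ.ρ s v - v ∈ maximalIdeal A • (⊤ : Submodule A ρ.V))
    (hφu : ∀ v : ρ.V, ρ.ρ φ v - algebraMap 𝒪 A d.u • v ∈ maximalIdeal A • (⊤ : Submodule A ρ.V))
    {s : GQ} (hs : s ∈ P.inertiaSubgroupIn ℚ) :
    IsTamePair d (TamePair.conjMap ρ b (f : A →+* B) g φ) (TamePair.conjMap ρ b (f : A →+* B) g s) ∧
      TamePair.conjMap ρ b (f : A →+* B) g φ * TamePair.conjMap ρ b (f : A →+* B) g s =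
        TamePair.conjMap ρ b (f : A →+* B) g s ^ d.q * TamePair.conjMap ρ b (f : A →+* B) g φ :=
  isTamePair_of_ringHom ρ b P g (f : A →+* B) d hf (f.commutes d.u) hρ hp hq hpq hP hφ hunr hφu hs

end ABig

end Fermat.Agent.GB.E2.TamePair
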