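/-
GATE-B / ENGINE leaf E2, part (4b) (helper67), node GB-E2-TAMEPAIR: **the framed universal matrices
`(framedMat v φ, framedMat v s)` at a prime `q ≠ p` form a tame pair** (helper6 `ABig.IsTamePair`)
and satisfy the tame relation — hence (`ABig.exists_eval`, `relIdeal_le_ker`) the `P6`-evaluation
`P6 𝒪 →ₐ[𝒪] FRing DQ Fr` exists, kills `relIdeal`, and `entries_mem_range` holds.

Plug of `TamePair.isTamePair_of_ringHom` into helper11's `GB/Def/FramedRing` vocabulary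
(`framedMat DQ Fr v = conjMat (frameGL v) (mapMat C (toMat DQ.ρ (stdBasis DQ.ρ)))` by `rfl`).
NEW file; imports only.
-/
import Mathlib
import Fermat.Agent.GB.E2.TamePair
import Fermat.Agent.GB.Def.FramedRing

set_option autoImplicit false
set_option linter.unusedSectionVars false

open IsLocalRing Matrix
open Fermat.Agent.S53_helper35 Fermat.Agent.S53_helper84
open Fermat.Agent.GP.Tan.Linear
open Fermat.Agent.GB.Def.FramedRing Fermat.Agent.GB.Local.ABig

namespace Fermat.Agent.GB.E2.TamePairFramed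

variable {𝒪 : Type} [CommRing 𝒪] [IsDomain 𝒪] [IsDiscreteValuationRing 𝒪]
  [IsAdicComplete (maximalIdeal 𝒪) 𝒪]
  {ρbar : ResidualGaloisRep (ResidueField 𝒪)}
  {𝒟 : ∀ ⦃A : Type⦄ [CommRing A] [IsLocalRing A] [Algebra 𝒪 A], GaloisRepAdic A → Prop}
  (DQ : GaloisRep.DeformationRingData 𝒪 ρbar 𝒟) (Fr : Type) [Finite Fr]

theorem framedMat_eq_conjMap (v : Fr) : framedMat DQ Fr v =
    TamePair.conjMap DQ.ρ (stdBasis DQ.ρ) (MvPowerSeries.C : DQ.R →+* FRing DQ Fr)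
      (frameGL DQ Fr v) := rfl

theorem isLocalHom_C : IsLocalHom (MvPowerSeries.C : DQ.R →+* FRing DQ Fr) := by
  constructor
  intro a ha
  have h1 : IsUnit (MvPowerSeries.constantCoeff (MvPowerSeries.C a : FRing DQ Fr)) :=
    ha.map MvPowerSeries.constantCoeff
  rwa [MvPowerSeries.constantCoeff_C] at h1

/-- **the framed universal tame pair at `q`.** -/
theorem isTamePair_framedMat (v : Fr) (d : TameDatum 𝒪)
    (P : ValuationSubring (AlgebraicClosure ℚ)) {p : ℕ}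
    (hρ : DQ.ρ.DetIsCyclotomic p) (hp : p.Prime) (hq : d.q.Prime) (hpq : p ≠ d.q)
    (hP : P.LiesOverPrime d.q) {φ : GQ} (hφ : P.IsFrobeniusAt φ d.q)
    (hunr : ∀ s ∈ P.inertiaSubgroupIn ℚ, ∀ x : DQ.ρ.V,
      DQ.ρ.ρ s x - x ∈ maximalIdeal DQ.R • (⊤ : Submodule DQ.R DQ.ρ.V))
    (hφu : ∀ x : DQ.ρ.V, DQ.ρ.ρ φ x - algebraMap 𝒪 DQ.R d.u • x ∈
      maximalIdeal DQ.R • (⊤ : Submodule DQ.R DQ.ρ.V))
    {s : GQ} (hs : s ∈ P.inertiaSubgroupIn ℚ) :
    IsTamePair d (framedMat DQ Fr v φ) (framedMat DQ Fr v s) ∧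
      framedMat DQ Fr v φ * framedMat DQ Fr v s =
        framedMat DQ Fr v s ^ d.q * framedMat DQ Fr v φ :=
  TamePair.isTamePair_of_ringHom DQ.ρ (stdBasis DQ.ρ) P (frameGL DQ Fr v)
    (MvPowerSeries.C : DQ.R →+* FRing DQ Fr) d (isLocalHom_C DQ Fr)
    (MvPowerSeries.algebraMap_apply (σ := Fr × Fin 3) (R := 𝒪) (A := DQ.R)).symm hρ hp hq hpq hP
    hφ hunr hφu hs

/-- the same from the frozen residual spellings: `DQ.ρ.residual` unramified at `q` and
`DQ.ρ.residual.ρ φ = ū • 1`. -/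
theorem isTamePair_framedMat_of_residual (v : Fr) (d : TameDatum 𝒪)
    (P : ValuationSubring (AlgebraicClosure ℚ)) {p : ℕ}
    (hρ : DQ.ρ.DetIsCyclotomic p) (hp : p.Prime) (hq : d.q.Prime) (hpq : p ≠ d.q)
    (hP : P.LiesOverPrime d.q) {φ : GQ} (hφ : P.IsFrobeniusAt φ d.q)
    (hres : DQ.ρ.residual.IsUnramifiedAt d.q)
    (hφres : DQ.ρ.residual.ρ φ = residue DQ.R (algebraMap 𝒪 DQ.R d.u) •
      (1 : Module.End (ResidueField DQ.R) DQ.ρ.residual.V))
    {s : GQ} (hs : s ∈ P.inertiaSubgroupIn ℚ) :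
    IsTamePair d (framedMat DQ Fr v φ) (framedMat DQ Fr v s) ∧
      framedMat DQ Fr v φ * framedMat DQ Fr v s =
        framedMat DQ Fr v s ^ d.q * framedMat DQ Fr v φ :=
  isTamePair_framedMat DQ Fr v d P hρ hp hq hpq hP hφ (TamePair.hunr_of_residual DQ.ρ P hres hP)
    (TamePair.hscalar_of_residual DQ.ρ _ hφres) hs

end Fermat.Agent.GB.E2.TamePairFramed
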