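/-
GATE-B / ENGINE leaf E2, part (1b) (helper67): **a uniform generator of the tame `p`-quotient**.

`P` a place of `ℚ̄` over `q`, `p ≠ q` a prime.  There is ONE `τ₀ ∈ I_P` such that for EVERY
homomorphism `f : G_ℚ →* H` of finite level with `f(I_P)` a `p`-group, `f(I_P)` is generated by
`f τ₀`:  `∀ s ∈ I_P, ∃ n : ℕ, f s = f τ₀ ^ n`.

(`GP/Loc/TamePQuot.exists_inertia_generator_of_isPGroup` gives a generator depending on `f`;
`GP/Loc/TameKummer.exists_tame_generator` gives a uniform one for groups killed by `p`.  Here: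
Frattini argument — `f(I_P) = ⟨c⟩` is a cyclic `p`-group, the exponent of `c` modulo `p` is an
additive `ZMod p`-valued function on `I_P`, hence determined by the Kummer character, hence nonzero
at `τ₀`; so `f τ₀ = c ^ a` with `p ∤ a` generates.)

Use: `Σ := ρ τ₀` in the tame framed ring at `q` — `ρ_g(I_q)` is (topologically) generated by
`ρ_g τ₀`, so the inertial type of `ρ_g` at `q` is visible on `Σ_g`.
-/
import Mathlib
import Fermat.Agent.GP.Loc.TameKummer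
import Fermat.Agent.GP.Loc.TamePQuot

set_option autoImplicit false
set_option linter.unusedSectionVars false
set_option linter.style.haveILetI false

open Fermat.Agent.Common_helper32

namespace Fermat.Agent.GB.E2.TameGen

open Fermat.Agent.GP.Loc

universe u

/-- in a group, `c ^ N = 1` with `N ≠ 0` lets one replace integer exponents by natural ones. -/
theorem exists_pow_eq_zpow {H : Type*} [Group H] (x : H) {N : ℕ} (hN : N ≠ 0) (hx : x ^ N = 1)
    (m : ℤ) : ∃ n : ℕ, x ^ m = x ^ n := by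
  refine ⟨(m % (N : ℤ)).toNat, ?_⟩
  have hN' : (N : ℤ) ≠ 0 := by exact_mod_cast hN
  have h0 : 0 ≤ m % (N : ℤ) := Int.emod_nonneg m hN'
  have e : m = (N : ℤ) * (m / (N : ℤ)) + m % (N : ℤ) := by
    have := Int.emod_add_mul_ediv m (N : ℤ)
    linarith
  rw [← zpow_natCast x (m % (N : ℤ)).toNat, Int.toNat_of_nonneg h0]
  conv_lhs => rw [e]
  rw [zpow_add, zpow_mul, zpow_natCast, hx, one_zpow, one_mul]

/-- **Uniform tame generator.** -/
theorem exists_uniform_generator (P : ValuationSubring Qb) {q : ℕ} (hq : q.Prime)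
    (hP : P.LiesOverPrime q) (p : ℕ) [Fact p.Prime] (hpq : p ≠ q) :
    ∃ τ₀ ∈ P.inertiaSubgroupIn ℚ, ∀ {H : Type u} [Group H] (f : GQ →* H),
      (∃ L : IntermediateField ℚ Qb, FiniteDimensional ℚ L ∧
        ∀ σ : GQ, (∀ x ∈ L, σ x = x) → f σ = 1) →
      IsPGroup p ((P.inertiaSubgroupIn ℚ).map f) →
      ∀ s ∈ P.inertiaSubgroupIn ℚ, ∃ n : ℕ, f s = f τ₀ ^ n := by
  classical
  have hp : p.Prime := Fact.out
  haveI : NeZero p := ⟨hp.ne_zero⟩
  have hA : ((q : ℕ) : Qb) ∈ P.nonunits := hP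
  obtain ⟨w, hw⟩ := IsAlgClosed.exists_pow_nat_eq ((q : ℕ) : Qb) hp.pos
  obtain ⟨ζ, hζ⟩ := HasEnoughRootsOfUnity.exists_primitiveRoot Qb p
  obtain ⟨τ₀, hτ₀, -, hgen⟩ := TameKummer.exists_tame_generator P hq hA hp hpq w hw hζ
  refine ⟨τ₀, hτ₀, ?_⟩
  intro H _ f hf hpG s hs
  obtain ⟨σ₀, hσ₀, hcyc⟩ := TamePQuot.exists_inertia_generator_of_isPGroup P hq hP f hf p hpq hpG
  set c : H := f σ₀ with hc
  -- `c` has `p`-power order
  obtain ⟨k, hk⟩ := hpG ⟨c, ⟨σ₀, hσ₀, rfl⟩⟩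
  have hck : c ^ p ^ k = 1 := by
    have := congrArg Subtype.val hk
    simpa using this
  by_cases hc1 : c = 1
  · obtain ⟨n, hn⟩ := hcyc s hs
    refine ⟨0, ?_⟩
    rw [hn, hc1, one_zpow, pow_zero]
  -- `p ∣ orderOf c`
  have hNdvd : orderOf c ∣ p ^ k := orderOf_dvd_of_pow_eq_one hck
  have hN0 : orderOf c ≠ 0 := fun h => by
    rw [h, zero_dvd_iff] at hNdvd
    exact pow_ne_zero k hp.ne_zero hNdvd
  have hpN : p ∣ orderOf c := by
    obtain ⟨j, -, hj⟩ := (Nat.dvd_prime_pow hp).1 hNdvd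
    rcases Nat.eq_zero_or_pos j with h0 | h0
    · exfalso
      rw [h0, pow_zero, orderOf_eq_one_iff] at hj
      exact hc1 hj
    · rw [hj]
      exact dvd_pow_self p h0.ne'
  -- exponents are well defined modulo `p`
  have hwd : ∀ n m : ℤ, c ^ n = c ^ m → ((n : ℤ) : ZMod p) = ((m : ℤ) : ZMod p) := by
    intro n m h
    have h1 : c ^ (n - m) = 1 := by rw [zpow_sub, h, mul_inv_cancel]
    have h2 : (orderOf c : ℤ) ∣ n - m := orderOf_dvd_iff_zpow_eq_one.mpr h1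
    have h3 : (p : ℤ) ∣ n - m := (Int.natCast_dvd_natCast.mpr hpN).trans h2
    rw [eq_comm, ZMod.intCast_eq_intCast_iff_dvd_sub]
    exact h3
  -- the exponent function
  let g : GQ → ZMod p := fun σ =>
    if h : σ ∈ P.inertiaSubgroupIn ℚ then ((Classical.choose (hcyc σ h) : ℤ) : ZMod p) else 0
  have hg : ∀ σ ∈ P.inertiaSubgroupIn ℚ, ∀ n : ℤ, f σ = c ^ n → g σ = ((n : ℤ) : ZMod p) := by
    intro σ hσ n hn
    show (if h : σ ∈ P.inertiaSubgroupIn ℚ then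
      ((Classical.choose (hcyc σ h) : ℤ) : ZMod p) else 0) = _
    rw [dif_pos hσ]
    exact hwd _ _ ((Classical.choose_spec (hcyc σ hσ)).symm.trans hn)
  have hadd : ∀ σ ∈ P.inertiaSubgroupIn ℚ, ∀ τ ∈ P.inertiaSubgroupIn ℚ,
      g (σ * τ) = g σ + g τ := by
    intro σ hσ τ hτ
    obtain ⟨n, hn⟩ := hcyc σ hσ
    obtain ⟨m, hm⟩ := hcyc τ hτ
    rw [hg σ hσ n hn, hg τ hτ m hm,
      hg (σ * τ) (Subgroup.mul_mem _ hσ hτ) (n + m) (by rw [map_mul, hn, hm, zpow_add]),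
      Int.cast_add]
  have hlev : ∃ H₀ : Subgroup GQ, IsOpen (H₀ : Set GQ) ∧
      ∀ σ ∈ P.inertiaSubgroupIn ℚ, ∀ h ∈ H₀, h ∈ P.inertiaSubgroupIn ℚ → g (σ * h) = g σ := by
    obtain ⟨L, hL, hker⟩ := hf
    refine ⟨L.fixingSubgroup, IntermediateField.fixingSubgroup_isOpen L, ?_⟩
    intro σ hσ h hh hhI
    obtain ⟨n, hn⟩ := hcyc σ hσ
    have hfh : f h = 1 := hker h ((IntermediateField.mem_fixingSubgroup_iff L h).mp hh)
    rw [hg σ hσ n hn,
      hg (σ * h) (Subgroup.mul_mem _ hσ hhI) n (by rw [map_mul, hfh, mul_one, hn])]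
  have hpM : ∀ m : ZMod p, p • m = 0 := by
    intro m
    rw [nsmul_eq_mul, CharP.cast_eq_zero, zero_mul]
  obtain ⟨h1, -⟩ := hgen hpM g hadd hlev
  -- `g τ₀ ≠ 0`
  obtain ⟨j₀, -, hj₀⟩ := TameKummer.exists_apply_root_eq hq hp w hw hζ σ₀
  have hgσ₀ : g σ₀ = 1 := by
    have := hg σ₀ hσ₀ 1 (by rw [zpow_one])
    rwa [Int.cast_one] at this
  have hgτ₀ : g τ₀ ≠ 0 := by
    intro h0
    have := h1 σ₀ hσ₀ j₀ hj₀
    rw [hgσ₀, h0, smul_zero] at this
    exact one_ne_zero this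
  -- `f τ₀ = c ^ a` with `p ∤ a`
  obtain ⟨a, ha⟩ := hcyc τ₀ hτ₀
  have hga : g τ₀ = ((a : ℤ) : ZMod p) := hg τ₀ hτ₀ a ha
  have hpa : ¬ (p : ℤ) ∣ a := by
    intro hdvd
    apply hgτ₀
    rw [hga]
    exact (ZMod.intCast_zmod_eq_zero_iff_dvd a p).mpr hdvd
  -- Bezout: `u * a + v * N = 1`
  have hcop : IsCoprime a (orderOf c : ℤ) := by
    obtain ⟨j, -, hj⟩ := (Nat.dvd_prime_pow hp).1 hNdvd
    rw [hj, Nat.cast_pow]
    refine IsCoprime.pow_right ?_
    rw [isCoprime_comm]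
    exact (Nat.prime_iff_prime_int.mp hp).irreducible.coprime_iff_not_dvd.mpr hpa
  obtain ⟨u', v', huv⟩ := hcop
  have hcτ : c = f τ₀ ^ u' := by
    rw [ha, ← zpow_mul]
    have : c ^ (a * u') = c ^ (a * u') * (c ^ (orderOf c : ℤ)) ^ v' := by
      rw [zpow_natCast, pow_orderOf_eq_one, one_zpow, mul_one]
    rw [this, ← zpow_mul, ← zpow_add, mul_comm a u', mul_comm (orderOf c : ℤ) v', huv, zpow_one]
  -- conclusion
  obtain ⟨n, hn⟩ := hcyc s hs
  have hfin : f τ₀ ^ orderOf c = 1 := by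
    rw [ha, ← zpow_natCast, ← zpow_mul, mul_comm, zpow_mul, zpow_natCast, pow_orderOf_eq_one,
      one_zpow]
  obtain ⟨m, hm⟩ := exists_pow_eq_zpow (f τ₀) hN0 hfin (u' * n)
  refine ⟨m, ?_⟩
  rw [hn, hcτ, ← zpow_mul, hm]

end Fermat.Agent.GB.E2.TameGen
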