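/-
GATE-B / ENGINE leaf E2, part (2b) (helper67): **the tame generator for adic representations**.

`IsTameGenerator P p τ₀` : `τ₀ ∈ I_P` generates `f(I_P)` for every finite-level `f` with `f(I_P)` a
`p`-group (`TameGen.exists_uniform_generator`: such `τ₀` exists, `P ∣ q ≠ p`).

For `ρ : GaloisRepAdic A` (`A` Noetherian local, `p ∈ 𝔪_A`) residually unramified at `P`:
* `redMat_eq_pow` : `ρ s ≡ (ρ τ₀) ^ j mod 𝔪 ^ n` for `s ∈ I_P` (`j` depending on `s`, `n`);
* `closure_principle` : an `𝔪`-adically closed set of endomorphisms containing all powers of `ρ τ₀`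
  contains `ρ(I_P)`;
* `eq_one_of_apply_eq_one` : `ρ τ₀ = 1 ⟹ ρ` unramified at `P`;
* `commute_of_commute` : the centraliser of `ρ τ₀` centralises `ρ(I_P)`;
* `charpoly_eq_of_charpoly_eq` : `charpoly (ρ τ₀) = (X - 1)² ⟹ charpoly (ρ s) = (X - 1)²` on `I_P`
  (the frozen `IsUnipotentOnInertiaAt` shape): the inertial type at `q` is visible on `Σ = ρ τ₀`.
-/
import Mathlib
import Fermat.Agent.GB.E2.TameGen
import Fermat.Agent.GB.E2.TameRelAdic
import Fermat.Agent.GK.Tate.S34Dens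

set_option autoImplicit false
set_option linter.unusedSectionVars false
set_option linter.style.haveILetI false

open IsLocalRing Module Polynomial
open Fermat.Agent.Common_helper32

namespace Fermat.Agent.GB.E2.TameGenAdic

open Fermat.Agent.GJ.Tate.Carayol Fermat.Agent.GB.E2.TameRelAdic

/-- `τ₀ ∈ I_P` generates the image of inertia under every finite-level homomorphism with `p`-group
image of inertia. -/
def IsTameGenerator (P : ValuationSubring Qb) (p : ℕ) (τ₀ : GQ) : Prop :=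
  τ₀ ∈ P.inertiaSubgroupIn ℚ ∧ ∀ {H : Type} [Group H] (f : GQ →* H),
    (∃ L : IntermediateField ℚ Qb, FiniteDimensional ℚ L ∧
      ∀ σ : GQ, (∀ x ∈ L, σ x = x) → f σ = 1) →
    IsPGroup p ((P.inertiaSubgroupIn ℚ).map f) →
    ∀ s ∈ P.inertiaSubgroupIn ℚ, ∃ n : ℕ, f s = f τ₀ ^ n

theorem exists_isTameGenerator (P : ValuationSubring Qb) {q : ℕ} (hq : q.Prime)
    (hP : P.LiesOverPrime q) (p : ℕ) [Fact p.Prime] (hpq : p ≠ q) :
    ∃ τ₀ : GQ, IsTameGenerator P p τ₀ := by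
  obtain ⟨τ₀, hτ₀, h⟩ := TameGen.exists_uniform_generator.{0} P hq hP p hpq
  exact ⟨τ₀, hτ₀, fun f hf hp => h f hf hp⟩

namespace IsTameGenerator

variable {P : ValuationSubring Qb} {p : ℕ} {τ₀ : GQ}
variable {A : Type} [CommRing A] [IsLocalRing A] (ρ : GaloisRepAdic A)

theorem mem_inertia (h : IsTameGenerator P p τ₀) : τ₀ ∈ P.inertiaSubgroupIn ℚ := h.1

/-- `ρ s ≡ (ρ τ₀) ^ j mod 𝔪 ^ n` on inertia. -/
theorem redMat_eq_pow (h : IsTameGenerator P p τ₀) (hp : p.Prime)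
    (hpA : (p : A) ∈ maximalIdeal A)
    (hunr : ∀ s ∈ P.inertiaSubgroupIn ℚ, ∀ v : ρ.V,
      ρ.ρ s v - v ∈ maximalIdeal A • (⊤ : Submodule A ρ.V))
    {s : GQ} (hs : s ∈ P.inertiaSubgroupIn ℚ) (n : ℕ) :
    ∃ j : ℕ, redMat (maximalIdeal A ^ n) ρ.V (ρ.ρ s) =
      redMat (maximalIdeal A ^ n) ρ.V (ρ.ρ τ₀ ^ j) := by
  obtain ⟨j, hj⟩ := h.2 (redUnits ρ n) (redUnits_level ρ n)
    (isPGroup_map_inertia ρ P hp hpA hunr n) s hs
  refine ⟨j, ?_⟩
  have h2 := congrArg Units.val hj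
  rw [Units.val_pow_eq_pow_val, redUnits_val, redUnits_val, ← map_pow] at h2
  exact h2

/-- **Closure principle**: a property of endomorphisms which is `𝔪`-adically closed (it holds for
`X` as soon as, for every `n`, it holds for some `Y` with `X ≡ Y mod 𝔪 ^ n`) and holds for all
powers of `ρ τ₀` holds on `ρ(I_P)`. -/
theorem closure_principle (h : IsTameGenerator P p τ₀) (hp : p.Prime)
    (hpA : (p : A) ∈ maximalIdeal A)
    (hunr : ∀ s ∈ P.inertiaSubgroupIn ℚ, ∀ v : ρ.V,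
      ρ.ρ s v - v ∈ maximalIdeal A • (⊤ : Submodule A ρ.V))
    (C : Module.End A ρ.V → Prop)
    (hclosed : ∀ X : Module.End A ρ.V,
      (∀ n : ℕ, ∃ Y : Module.End A ρ.V, C Y ∧
        redMat (maximalIdeal A ^ n) ρ.V X = redMat (maximalIdeal A ^ n) ρ.V Y) → C X)
    (hpow : ∀ j : ℕ, C (ρ.ρ τ₀ ^ j)) {s : GQ} (hs : s ∈ P.inertiaSubgroupIn ℚ) :
    C (ρ.ρ s) := by
  refine hclosed _ fun n => ?_
  obtain ⟨j, hj⟩ := h.redMat_eq_pow ρ hp hpA hunr hs n
  exact ⟨_, hpow j, hj⟩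

/-- if the generator acts trivially, `ρ` is unramified at `P`. -/
theorem eq_one_of_apply_eq_one [IsNoetherianRing A] (h : IsTameGenerator P p τ₀) (hp : p.Prime)
    (hpA : (p : A) ∈ maximalIdeal A)
    (hunr : ∀ s ∈ P.inertiaSubgroupIn ℚ, ∀ v : ρ.V,
      ρ.ρ s v - v ∈ maximalIdeal A • (⊤ : Submodule A ρ.V))
    (h1 : ρ.ρ τ₀ = 1) {s : GQ} (hs : s ∈ P.inertiaSubgroupIn ℚ) : ρ.ρ s = 1 := by
  refine h.closure_principle ρ hp hpA hunr (fun X => X = 1) ?_ ?_ hs
  · intro X hX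
    rw [← sub_eq_zero]
    refine eq_zero_of_forall_redMat_eq_zero ρ _ fun n => ?_
    obtain ⟨Y, hY, hXY⟩ := hX n
    rw [map_sub, hXY, hY, sub_self]
  · intro j
    rw [h1, one_pow]

/-- whatever commutes with `ρ τ₀` commutes with `ρ(I_P)`. -/
theorem commute_of_commute [IsNoetherianRing A] (h : IsTameGenerator P p τ₀) (hp : p.Prime)
    (hpA : (p : A) ∈ maximalIdeal A)
    (hunr : ∀ s ∈ P.inertiaSubgroupIn ℚ, ∀ v : ρ.V,
      ρ.ρ s v - v ∈ maximalIdeal A • (⊤ : Submodule A ρ.V))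
    (Z : Module.End A ρ.V) (hZ : Z * ρ.ρ τ₀ = ρ.ρ τ₀ * Z)
    {s : GQ} (hs : s ∈ P.inertiaSubgroupIn ℚ) : Z * ρ.ρ s = ρ.ρ s * Z := by
  refine h.closure_principle ρ hp hpA hunr (fun X => Z * X = X * Z) ?_ ?_ hs
  · intro X hX
    rw [← sub_eq_zero]
    refine eq_zero_of_forall_redMat_eq_zero ρ _ fun n => ?_
    obtain ⟨Y, hY, hXY⟩ := hX n
    rw [map_sub, map_mul, map_mul, hXY, ← map_mul, ← map_mul, hY, sub_self]
  · intro j
    exact ((Commute.pow_right (show Commute Z (ρ.ρ τ₀) from hZ) j)).eq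

/-- `(1 + N) ^ j = 1 + j N` when `N² = 0`. -/
theorem one_add_pow_of_sq_zero {E : Type*} [Ring E] (N : E) (hN : N * N = 0) (j : ℕ) :
    (1 + N) ^ j = 1 + (j : E) * N := by
  induction j with
  | zero => rw [pow_zero, Nat.cast_zero, zero_mul, add_zero]
  | succ j ih =>
    rw [pow_succ, ih, Nat.cast_succ, mul_add, mul_one, add_mul, mul_assoc, hN, mul_zero,
      add_zero, add_mul, one_mul]
    abel

/-- **Unipotence is visible on the generator**: if `charpoly (ρ τ₀) = (X - 1)²` then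
`charpoly (ρ s) = (X - 1)²` for every `s ∈ I_P`. -/
theorem charpoly_eq_of_charpoly_eq [IsNoetherianRing A] (h : IsTameGenerator P p τ₀)
    (hp : p.Prime) (hpA : (p : A) ∈ maximalIdeal A)
    (hunr : ∀ s ∈ P.inertiaSubgroupIn ℚ, ∀ v : ρ.V,
      ρ.ρ s v - v ∈ maximalIdeal A • (⊤ : Submodule A ρ.V))
    (h1 : LinearMap.charpoly (ρ.ρ τ₀) = (X - 1) ^ 2)
    {s : GQ} (hs : s ∈ P.inertiaSubgroupIn ℚ) :
    LinearMap.charpoly (ρ.ρ s) = (X - 1) ^ 2 := by
  set T := ρ.ρ τ₀ with hT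
  -- trace and determinant of `T`
  have hcp := Fermat.Agent.GK.Tate.charpoly_eq_of_finrank_two ρ.finrank_eq T
  have h1' : (X - 1 : A[X]) ^ 2 = X ^ 2 - C (2 : A) * X + C (1 : A) := by
    rw [map_one, map_ofNat]; ring
  have hdetT : LinearMap.det T = 1 :=
    Fermat.Agent.GK.Tate.det_eq_of_charpoly_eq ρ.finrank_eq T 2 1 (h1.trans h1')
  have htrT : LinearMap.trace A ρ.V T = 2 := by
    have h2 := congrArg (fun Q : A[X] => Q.coeff 1) (hcp.symm.trans (h1.trans h1'))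
    simp only [coeff_add, coeff_sub, coeff_X_pow, coeff_C_mul, coeff_X_one, coeff_C] at h2
    simpa using h2
  -- Cayley–Hamilton: `(T - 1)² = 0`
  have hN : (T - 1) * (T - 1) = 0 := by
    have hch := LinearMap.aeval_self_charpoly T
    rw [h1, map_pow, map_sub, aeval_X, map_one, pow_two] at hch
    exact hch
  -- trace and determinant of the powers
  have hpowtr : ∀ j : ℕ, LinearMap.trace A ρ.V (T ^ j) = 2 := by
    intro j
    have e : T ^ j = 1 + (j : Module.End A ρ.V) * (T - 1) := by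
      have := one_add_pow_of_sq_zero (T - 1) hN j
      rwa [add_sub_cancel] at this
    rw [e, map_add, LinearMap.trace_one, ρ.finrank_eq, ← nsmul_eq_mul, map_nsmul, map_sub, htrT,
      LinearMap.trace_one, ρ.finrank_eq]
    simp
  have hpowdet : ∀ j : ℕ, LinearMap.det (T ^ j) = 1 := by
    intro j
    rw [map_pow, hdetT, one_pow]
  -- transfer to `ρ s`
  have htr : LinearMap.trace A ρ.V (ρ.ρ s) = 2 := by
    rw [← sub_eq_zero]
    have hmem : LinearMap.trace A ρ.V (ρ.ρ s) - 2 ∈ (⨅ n : ℕ, maximalIdeal A ^ n) := by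
      rw [Ideal.mem_iInf]
      intro n
      obtain ⟨j, hj⟩ := h.redMat_eq_pow ρ hp hpA hunr hs n
      have := congrArg Matrix.trace hj
      rw [trace_redMat, trace_redMat, hpowtr j] at this
      exact Ideal.Quotient.eq.mp this
    rwa [Ideal.iInf_pow_eq_bot_of_isLocalRing _ (maximalIdeal.isMaximal A).ne_top] at hmem
  have hdet : LinearMap.det (ρ.ρ s) = 1 := by
    rw [← sub_eq_zero]
    have hmem : LinearMap.det (ρ.ρ s) - 1 ∈ (⨅ n : ℕ, maximalIdeal A ^ n) := by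
      rw [Ideal.mem_iInf]
      intro n
      obtain ⟨j, hj⟩ := h.redMat_eq_pow ρ hp hpA hunr hs n
      have := congrArg Matrix.det hj
      rw [Fermat.Agent.GK.Tate.det_redMat, Fermat.Agent.GK.Tate.det_redMat, hpowdet j] at this
      exact Ideal.Quotient.eq.mp this
    rwa [Ideal.iInf_pow_eq_bot_of_isLocalRing _ (maximalIdeal.isMaximal A).ne_top] at hmem
  exact Fermat.Agent.GK.Tate.charpoly_eq_sq_of_trace_det ρ.finrank_eq _ htr hdet

end IsTameGenerator

end Fermat.Agent.GB.E2.TameGenAdic
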