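/-
GATE-B / E2 leaf GB-E2-TWCHARS (helper91): the binder-free plug
`GB/E2/TameRelAdic.tame_relation` (helper67) ⟹ `htame` of `GB/E2/TWDiag.exists_characters`.

**Local structure of an adic Galois representation at a Taylor–Wiles prime.**
`A` noetherian henselian local of residue characteristic `p`, `ρ : GaloisRepAdic A`, `q ≠ p` prime
with `q ≡ 1 mod 𝔪`, `P | q`, `φ` a Frobenius at `P`, `ρ̄` unramified at `q` and `ρ̄ φ` with two
eigenvalues `a₀ ≢ b₀`.  Then `ρ|D_P = χ₀ ⊕ χ₁` in a basis `B`, `χ_i : D_P →* Aˣ`,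
`χ₀ φ ≡ a₀`, `χ₁ φ ≡ b₀`, and on inertia `χ_i ≡ 1 mod 𝔪`, `χ_i ^ q = χ_i`.
-/
import Mathlib
import Fermat.Agent.GB.E2.TameRelAdic
import Fermat.Agent.GB.E2.TWDiag

set_option autoImplicit false

namespace Fermat.Agent.GB.E2.TWChars

open IsLocalRing Fermat.Agent.Common_helper32 Fermat.Agent.GB.E2.TWDiag

variable {A : Type} [CommRing A] [HenselianLocalRing A]

/-- **`ρ|D_P = χ₀ ⊕ χ₁` at a Taylor–Wiles prime**, no open binder; `hunr` in the adic spelling. -/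
theorem exists_characters_of_unr [IsNoetherianRing A] (ρ : GaloisRepAdic A)
    (P : ValuationSubring Qb) {p q : ℕ} (hp : p.Prime) (hpA : (p : A) ∈ maximalIdeal A)
    (hqp : q.Prime) (hpq : p ≠ q) (hP : P.LiesOverPrime q)
    {φ : GQ} (hφ : P.IsFrobeniusAt φ q) (a₀ b₀ : A)
    (htr : LinearMap.trace A ρ.V (ρ.ρ φ) - (a₀ + b₀) ∈ maximalIdeal A)
    (hdet : LinearMap.det (ρ.ρ φ) - a₀ * b₀ ∈ maximalIdeal A) (hab : IsUnit (a₀ - b₀))
    (hunr : ∀ s ∈ P.inertiaSubgroupIn ℚ, ∀ v, ρ.ρ s v - v ∈ maximalIdeal A • (⊤ : Submodule A ρ.V))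
    (hq : (q : A) - 1 ∈ maximalIdeal A) :
    ∃ (B : Module.Basis (Fin 2) A ρ.V) (χ : Fin 2 → P.decompositionSubgroup ℚ →* Aˣ),
      (∀ (i : Fin 2) (σ : P.decompositionSubgroup ℚ), ρ.ρ (σ : GQ) (B i) = (χ i σ : A) • B i) ∧
      (χ 0 ⟨φ, hφ.mem_decompositionSubgroup⟩ : A) - a₀ ∈ maximalIdeal A ∧
      (χ 1 ⟨φ, hφ.mem_decompositionSubgroup⟩ : A) - b₀ ∈ maximalIdeal A ∧
      ∀ i (s : GQ) (hs : s ∈ P.inertiaSubgroupIn ℚ),
        (χ i ⟨s, inertia_le_decomposition P hs⟩ : A) - 1 ∈ maximalIdeal A ∧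
          (χ i ⟨s, inertia_le_decomposition P hs⟩ : A) ^ q =
            χ i ⟨s, inertia_le_decomposition P hs⟩ :=
  exists_characters ρ P hqp hP hφ a₀ b₀ htr hdet hab hunr hq
    (TameRelAdic.tame_relation ρ P hp hpA hqp hpq hP hφ hunr)

/-- Same, with the frozen residual unramifiedness `ρ.residual.IsUnramifiedAt q`. -/
theorem exists_characters_of_residual [IsNoetherianRing A] (ρ : GaloisRepAdic A)
    (P : ValuationSubring Qb) {p q : ℕ} (hp : p.Prime) (hpA : (p : A) ∈ maximalIdeal A)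
    (hqp : q.Prime) (hpq : p ≠ q) (hP : P.LiesOverPrime q)
    {φ : GQ} (hφ : P.IsFrobeniusAt φ q) (a₀ b₀ : A)
    (htr : LinearMap.trace A ρ.V (ρ.ρ φ) - (a₀ + b₀) ∈ maximalIdeal A)
    (hdet : LinearMap.det (ρ.ρ φ) - a₀ * b₀ ∈ maximalIdeal A) (hab : IsUnit (a₀ - b₀))
    (hres : ρ.residual.IsUnramifiedAt q)
    (hq : (q : A) - 1 ∈ maximalIdeal A) :
    ∃ (B : Module.Basis (Fin 2) A ρ.V) (χ : Fin 2 → P.decompositionSubgroup ℚ →* Aˣ),
      (∀ (i : Fin 2) (σ : P.decompositionSubgroup ℚ), ρ.ρ (σ : GQ) (B i) = (χ i σ : A) • B i) ∧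
      (χ 0 ⟨φ, hφ.mem_decompositionSubgroup⟩ : A) - a₀ ∈ maximalIdeal A ∧
      (χ 1 ⟨φ, hφ.mem_decompositionSubgroup⟩ : A) - b₀ ∈ maximalIdeal A ∧
      ∀ i (s : GQ) (hs : s ∈ P.inertiaSubgroupIn ℚ),
        (χ i ⟨s, inertia_le_decomposition P hs⟩ : A) - 1 ∈ maximalIdeal A ∧
          (χ i ⟨s, inertia_le_decomposition P hs⟩ : A) ^ q =
            χ i ⟨s, inertia_le_decomposition P hs⟩ :=
  exists_characters_of_unr ρ P hp hpA hqp hpq hP hφ a₀ b₀ htr hdet hab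
    (fun s hs v => sub_mem_smul_top_of_baseChange_eq_one (ρ.ρ s) (hres P hP s hs) v) hq

end Fermat.Agent.GB.E2.TWChars
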