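/-
GATE-B / ENGINE leaf E2, part (1c) (helper67), seam request of helper11 (board 5519):
**every KUMMER element of inertia is a uniform tame generator.**

`P ∣ q ≠ p`, `w ^ p = q`, `ζ` a primitive `p`-th root of unity, `τ₀ ∈ I_P` with `τ₀ w = ζ w`.  Then
for EVERY finite-level `f : G_ℚ →* H` with `f(I_P)` a `p`-group, `f(I_P)` is generated by `f τ₀`
(`uniform_generator_of_kummer`), i.e. `IsTameGenerator P p τ₀` (`isTameGenerator_of_kummer`).
So ONE pair `(φ_q, τ_q)` serves B1 (the `A^big` point), B2 (`LocGen` + `hrange`) and B5 (the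
inertial type is visible on `Σ = ρ τ_q`).

Proof = that of `TameGen.exists_uniform_generator` with the generator given in advance
(`TameKummer.apply_eq_nsmul` holds for every Kummer element).
NEW file; imports only.
-/
import Mathlib
import Fermat.Agent.GB.E2.TameGen
import Fermat.Agent.GB.E2.TameGenAdic

set_option autoImplicit false
set_option linter.unusedSectionVars false
set_option linter.style.haveILetI false

open Fermat.Agent.Common_helper32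

namespace Fermat.Agent.GB.E2.TameGenKummer

open Fermat.Agent.GP.Loc Fermat.Agent.GB.E2.TameGen Fermat.Agent.GB.E2.TameGenAdic

/-- **every Kummer element generates**: uniform generator property for a GIVEN `τ₀ ∈ I_P` with
`τ₀ w = ζ w`. -/
theorem uniform_generator_of_kummer (P : ValuationSubring Qb) {q : ℕ} (hq : q.Prime)
    (hP : P.LiesOverPrime q) (p : ℕ) [Fact p.Prime] (hpq : p ≠ q)
    {w ζ : Qb} {τ₀ : GQ} (hw : w ^ p = ((q : ℕ) : Qb)) (hζ : IsPrimitiveRoot ζ p)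
    (hτ₀ : τ₀ ∈ P.inertiaSubgroupIn ℚ) (hτ₀w : τ₀ w = ζ * w) :
    ∀ {H : Type} [Group H] (f : GQ →* H),
      (∃ L : IntermediateField ℚ Qb, FiniteDimensional ℚ L ∧
        ∀ σ : GQ, (∀ x ∈ L, σ x = x) → f σ = 1) →
      IsPGroup p ((P.inertiaSubgroupIn ℚ).map f) →
      ∀ s ∈ P.inertiaSubgroupIn ℚ, ∃ n : ℕ, f s = f τ₀ ^ n := by
  classical
  have hp : p.Prime := Fact.out
  have hA : ((q : ℕ) : Qb) ∈ P.nonunits := hP
  have hw0 := TameKummer.root_ne_zero hq hp w hw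
  have hgen : ∀ {M : Type} [AddCommGroup M] (_ : ∀ m : M, p • m = 0) (f : GQ → M)
      (_ : ∀ σ ∈ P.inertiaSubgroupIn ℚ, ∀ τ ∈ P.inertiaSubgroupIn ℚ, f (σ * τ) = f σ + f τ)
      (_ : ∃ H : Subgroup GQ, IsOpen (H : Set GQ) ∧
        ∀ σ ∈ P.inertiaSubgroupIn ℚ, ∀ h ∈ H, h ∈ P.inertiaSubgroupIn ℚ → f (σ * h) = f σ),
      (∀ τ ∈ P.inertiaSubgroupIn ℚ, ∀ j : ℕ, τ w = ζ ^ j * w → f τ = j • f τ₀) ∧ True := by
    intro M _ hpM f hadd hlev
    refine ⟨fun τ hτ j hj => ?_, trivial⟩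
    apply TameKummer.apply_eq_nsmul P hq hA hp hpq w hw hpM f hadd hlev hτ₀ hτ j
    rw [hj, hτ₀w, mul_div_assoc, div_self hw0, mul_one, mul_div_assoc, div_self hw0, mul_one]
  intro H _ f hf hpG s hs
  obtain ⟨σ₀, hσ₀, hcyc⟩ := TamePQuot.exists_inertia_generator_of_isPGroup P hq hP f hf p hpq hpG
  set c : H := f σ₀ with hc
  -- `c` has `p`-power order
  obtain ⟨k, hk⟩ := hpG ⟨c, ⟨σ₀, hσ₀, rfl⟩⟩
  have hck : c ^ p ^ k = 1 := by
    have := congrArg Subtype.val hk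
    simpa using this
  by_cases hc1 : c = 1
  · obtain ⟨n, hn⟩ := hcyc s hs
    refine ⟨0, ?_⟩
    rw [hn, hc1, one_zpow, pow_zero]
  -- `p ∣ orderOf c`
  have hNdvd : orderOf c ∣ p ^ k := orderOf_dvd_of_pow_eq_one hck
  have hN0 : orderOf c ≠ 0 := fun h => by
    rw [h, zero_dvd_iff] at hNdvd
    exact pow_ne_zero k hp.ne_zero hNdvd
  have hpN : p ∣ orderOf c := by
    obtain ⟨j, -, hj⟩ := (Nat.dvd_prime_pow hp).1 hNdvd
    rcases Nat.eq_zero_or_pos j with h0 | h0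
    · exfalso
      rw [h0, pow_zero, orderOf_eq_one_iff] at hj
      exact hc1 hj
    · rw [hj]
      exact dvd_pow_self p h0.ne'
  -- exponents are well defined modulo `p`
  have hwd : ∀ n m : ℤ, c ^ n = c ^ m → ((n : ℤ) : ZMod p) = ((m : ℤ) : ZMod p) := by
    intro n m h
    have h1 : c ^ (n - m) = 1 := by rw [zpow_sub, h, mul_inv_cancel]
    have h2 : (orderOf c : ℤ) ∣ n - m := orderOf_dvd_iff_zpow_eq_one.mpr h1
    have h3 : (p : ℤ) ∣ n - m := (Int.natCast_dvd_natCast.mpr hpN).trans h2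
    rw [eq_comm, ZMod.intCast_eq_intCast_iff_dvd_sub]
    exact h3
  -- the exponent function
  let g : GQ → ZMod p := fun σ =>
    if h : σ ∈ P.inertiaSubgroupIn ℚ then ((Classical.choose (hcyc σ h) : ℤ) : ZMod p) else 0
  have hg : ∀ σ ∈ P.inertiaSubgroupIn ℚ, ∀ n : ℤ, f σ = c ^ n → g σ = ((n : ℤ) : ZMod p) := by
    intro σ hσ n hn
    show (if h : σ ∈ P.inertiaSubgroupIn ℚ then
      ((Classical.choose (hcyc σ h) : ℤ) : ZMod p) else 0) = _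
    rw [dif_pos hσ]
    exact hwd _ _ ((Classical.choose_spec (hcyc σ hσ)).symm.trans hn)
  have hadd : ∀ σ ∈ P.inertiaSubgroupIn ℚ, ∀ τ ∈ P.inertiaSubgroupIn ℚ,
      g (σ * τ) = g σ + g τ := by
    intro σ hσ τ hτ
    obtain ⟨n, hn⟩ := hcyc σ hσ
    obtain ⟨m, hm⟩ := hcyc τ hτ
    rw [hg σ hσ n hn, hg τ hτ m hm,
      hg (σ * τ) (Subgroup.mul_mem _ hσ hτ) (n + m) (by rw [map_mul, hn, hm, zpow_add]),
      Int.cast_add]
  have hlev : ∃ H₀ : Subgroup GQ, IsOpen (H₀ : Set GQ) ∧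
      ∀ σ ∈ P.inertiaSubgroupIn ℚ, ∀ h ∈ H₀, h ∈ P.inertiaSubgroupIn ℚ → g (σ * h) = g σ := by
    obtain ⟨L, hL, hker⟩ := hf
    refine ⟨L.fixingSubgroup, IntermediateField.fixingSubgroup_isOpen L, ?_⟩
    intro σ hσ h hh hhI
    obtain ⟨n, hn⟩ := hcyc σ hσ
    have hfh : f h = 1 := hker h ((IntermediateField.mem_fixingSubgroup_iff L h).mp hh)
    rw [hg σ hσ n hn,
      hg (σ * h) (Subgroup.mul_mem _ hσ hhI) n (by rw [map_mul, hfh, mul_one, hn])]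
  have hpM : ∀ m : ZMod p, p • m = 0 := by
    intro m
    rw [nsmul_eq_mul, CharP.cast_eq_zero, zero_mul]
  obtain ⟨h1, -⟩ := hgen hpM g hadd hlev
  -- `g τ₀ ≠ 0`
  obtain ⟨j₀, -, hj₀⟩ := TameKummer.exists_apply_root_eq hq hp w hw hζ σ₀
  have hgσ₀ : g σ₀ = 1 := by
    have := hg σ₀ hσ₀ 1 (by rw [zpow_one])
    rwa [Int.cast_one] at this
  have hgτ₀ : g τ₀ ≠ 0 := by
    intro h0
    have := h1 σ₀ hσ₀ j₀ hj₀
    rw [hgσ₀, h0, smul_zero] at this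
    exact one_ne_zero this
  -- `f τ₀ = c ^ a` with `p ∤ a`
  obtain ⟨a, ha⟩ := hcyc τ₀ hτ₀
  have hga : g τ₀ = ((a : ℤ) : ZMod p) := hg τ₀ hτ₀ a ha
  have hpa : ¬ (p : ℤ) ∣ a := by
    intro hdvd
    apply hgτ₀
    rw [hga]
    exact (ZMod.intCast_zmod_eq_zero_iff_dvd a p).mpr hdvd
  -- Bezout: `u * a + v * N = 1`
  have hcop : IsCoprime a (orderOf c : ℤ) := by
    obtain ⟨j, -, hj⟩ := (Nat.dvd_prime_pow hp).1 hNdvd
    rw [hj, Nat.cast_pow]
    refine IsCoprime.pow_right ?_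
    rw [isCoprime_comm]
    exact (Nat.prime_iff_prime_int.mp hp).irreducible.coprime_iff_not_dvd.mpr hpa
  obtain ⟨u', v', huv⟩ := hcop
  have hcτ : c = f τ₀ ^ u' := by
    rw [ha, ← zpow_mul]
    have : c ^ (a * u') = c ^ (a * u') * (c ^ (orderOf c : ℤ)) ^ v' := by
      rw [zpow_natCast, pow_orderOf_eq_one, one_zpow, mul_one]
    rw [this, ← zpow_mul, ← zpow_add, mul_comm a u', mul_comm (orderOf c : ℤ) v', huv, zpow_one]
  -- conclusion
  obtain ⟨n, hn⟩ := hcyc s hs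
  have hfin : f τ₀ ^ orderOf c = 1 := by
    rw [ha, ← zpow_natCast, ← zpow_mul, mul_comm, zpow_mul, zpow_natCast, pow_orderOf_eq_one,
      one_zpow]
  obtain ⟨m, hm⟩ := exists_pow_eq_zpow (f τ₀) hN0 hfin (u' * n)
  refine ⟨m, ?_⟩
  rw [hn, hcτ, ← zpow_mul, hm]

/-- **a Kummer element is a tame generator** (`TameGenAdic.IsTameGenerator`). -/
theorem isTameGenerator_of_kummer (P : ValuationSubring Qb) {q : ℕ} (hq : q.Prime)
    (hP : P.LiesOverPrime q) (p : ℕ) [Fact p.Prime] (hpq : p ≠ q)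
    {w ζ : Qb} {τ₀ : GQ} (hw : w ^ p = ((q : ℕ) : Qb)) (hζ : IsPrimitiveRoot ζ p)
    (hτ₀ : τ₀ ∈ P.inertiaSubgroupIn ℚ) (hτ₀w : τ₀ w = ζ * w) :
    IsTameGenerator P p τ₀ :=
  ⟨hτ₀, fun f hf hpG => uniform_generator_of_kummer P hq hP p hpq hw hζ hτ₀ hτ₀w f hf hpG⟩

/-- existence in one package: a Frobenius element and a Kummer tame generator which is an
`IsTameGenerator`. -/
theorem exists_frob_kummer_generator (P : ValuationSubring Qb) {q : ℕ} (hq : q.Prime)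
    (hP : P.LiesOverPrime q) (p : ℕ) [Fact p.Prime] (hpq : p ≠ q) :
    ∃ (w ζ : Qb) (φ τ₀ : GQ), w ^ p = ((q : ℕ) : Qb) ∧ IsPrimitiveRoot ζ p ∧
      P.IsFrobeniusAt φ q ∧ τ₀ ∈ P.inertiaSubgroupIn ℚ ∧ τ₀ w = ζ * w ∧
      IsTameGenerator P p τ₀ := by
  have hp : p.Prime := Fact.out
  have : NeZero p := ⟨hp.ne_zero⟩
  have hA : ((q : ℕ) : Qb) ∈ P.nonunits := hP
  obtain ⟨w, hw⟩ := IsAlgClosed.exists_pow_nat_eq ((q : ℕ) : Qb) hp.pos
  obtain ⟨ζ, hζ⟩ := HasEnoughRootsOfUnity.exists_primitiveRoot Qb p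
  obtain ⟨τ₀, hτ₀, hτ₀w⟩ :=
    TameKummer.exists_mem_inertia_apply_root P hq hA hp w hw hζ.pow_eq_one hpq
  obtain ⟨φ, hφ⟩ := exists_isFrobeniusAt_of_liesOver P q hq hA
  exact ⟨w, ζ, φ, τ₀, hw, hζ, hφ, hτ₀, hτ₀w,
    isTameGenerator_of_kummer P hq hP p hpq hw hζ hτ₀ hτ₀w⟩

end Fermat.Agent.GB.E2.TameGenKummer
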