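/-
GATE-B / E2 leaf GB-E2-DELTAHOM (helper91).  Mathlib only.

**The `𝒪[Δ]`-structure defined by the inertia characters at Taylor–Wiles primes.**

* `pow_ppart_eq_one` : `A` local, `p ∈ 𝔪`, `x ≡ 1 mod 𝔪`, `x ^ q = x`, `q = p ^ a * m + 1` with
  `p ∤ m` (i.e. `p ^ a ‖ q - 1`)  ⟹  `x ^ (p ^ a) = 1`.
  [`TWChars.exists_characters_of_residual` gives exactly `χ s ≡ 1` and `χ s ^ q = χ s`.]
* `deltaHom n x hx : Multiplicative (ZMod n) →* Aˣ`, generator `↦ x` (for `x ^ n = 1`), and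
  `deltaAlgHom` : `MonoidAlgebra 𝒪 (Multiplicative (ZMod n)) →ₐ[𝒪] A`.
* `deltaHomPi`, `deltaAlgHomPi` : the same for `Δ_Q = (ℤ/n)^r`, from commuting `x_j`.
-/
import Mathlib

set_option autoImplicit false

namespace Fermat.Agent.GB.E2.DeltaHom

open IsLocalRing

section Ppart

variable {A : Type*} [CommRing A] [IsLocalRing A]

/-- `1 + 𝔪 ⊆ Aˣ`. -/
theorem isUnit_of_sub_one_mem {x : A} (hx : x - 1 ∈ maximalIdeal A) : IsUnit x := by
  by_contra h
  have h2 : x ∈ maximalIdeal A := (mem_maximalIdeal _).2 h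
  have h3 : (1 : A) ∈ maximalIdeal A := by
    have : (1 : A) = x - (x - 1) := by ring
    rw [this]; exact Ideal.sub_mem _ h2 hx
  exact (mem_maximalIdeal _).1 h3 isUnit_one

theorem pow_sub_one_mem {x : A} (hx : x - 1 ∈ maximalIdeal A) (n : ℕ) :
    x ^ n - 1 ∈ maximalIdeal A := by
  induction n with
  | zero => simp
  | succ n ih =>
    have : x ^ (n + 1) - 1 = (x ^ n - 1) * x + (x - 1) := by ring
    rw [this]
    exact Ideal.add_mem _ (Ideal.mul_mem_right _ _ ih) hx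

/-- An integer prime to the residue characteristic is a unit. -/
theorem isUnit_natCast_of_not_dvd {p : ℕ} (hp : p.Prime) (hpA : (p : A) ∈ maximalIdeal A)
    {m : ℕ} (hm : ¬ p ∣ m) : IsUnit (m : A) := by
  have hcop : Nat.Coprime p m := (Nat.Prime.coprime_iff_not_dvd hp).2 hm
  have h1 : ((p.gcdA m : ℤ) : A) * (p : A) + ((p.gcdB m : ℤ) : A) * (m : A) = 1 := by
    have := Nat.gcd_eq_gcd_ab p m
    rw [hcop] at this
    have h2 := congrArg (Int.cast : ℤ → A) this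
    push_cast at h2
    rw [h2]; ring
  refine isUnit_of_mul_isUnit_right (x := ((p.gcdB m : ℤ) : A)) ?_
  apply isUnit_of_sub_one_mem
  have : ((p.gcdB m : ℤ) : A) * (m : A) - 1 = -(((p.gcdA m : ℤ) : A) * (p : A)) := by
    linear_combination h1
  rw [this]
  exact Ideal.neg_mem_iff _ |>.2 (Ideal.mul_mem_left _ _ hpA)

/-- **The inertia character has `p`-power order.**  `x ≡ 1 mod 𝔪`, `x ^ q = x`,
`q - 1 = p ^ a * m`, `p ∤ m`  ⟹  `x ^ (p ^ a) = 1`. -/
theorem pow_ppart_eq_one {p : ℕ} (hp : p.Prime) (hpA : (p : A) ∈ maximalIdeal A)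
    {x : A} (hx : x - 1 ∈ maximalIdeal A) {q a m : ℕ} (hq : q = p ^ a * m + 1) (hm : ¬ p ∣ m)
    (hxq : x ^ q = x) : x ^ (p ^ a) = 1 := by
  have hxu := isUnit_of_sub_one_mem hx
  -- `x ^ (q - 1) = 1`
  have h1 : x ^ (p ^ a * m) = 1 := by
    rw [hq, pow_succ] at hxq
    have : x ^ (p ^ a * m) * x = 1 * x := by rw [hxq, one_mul]
    exact hxu.mul_right_cancel this
  set y := x ^ (p ^ a) with hy
  have hy1 : y - 1 ∈ maximalIdeal A := pow_sub_one_mem hx _
  have hym : y ^ m = 1 := by rw [hy, ← pow_mul, h1]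
  -- `(∑_{i<m} y^i) * (y - 1) = 0` and the sum is a unit
  have hgeom : (∑ i ∈ Finset.range m, y ^ i) * (y - 1) = 0 := by
    rw [geom_sum_mul, hym, sub_self]
  have hsum : IsUnit (∑ i ∈ Finset.range m, y ^ i) := by
    have hmu := isUnit_natCast_of_not_dvd hp hpA hm
    have hdiff : (∑ i ∈ Finset.range m, y ^ i) - (m : A) ∈ maximalIdeal A := by
      have : (∑ i ∈ Finset.range m, y ^ i) - (m : A) = ∑ i ∈ Finset.range m, (y ^ i - 1) := by
        rw [Finset.sum_sub_distrib]; simp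
      rw [this]
      exact Ideal.sum_mem _ (fun i _ => pow_sub_one_mem hy1 i)
    by_contra h
    have h2 : (∑ i ∈ Finset.range m, y ^ i) ∈ maximalIdeal A := (mem_maximalIdeal _).2 h
    have h3 : (m : A) ∈ maximalIdeal A := by
      have : (m : A) = (∑ i ∈ Finset.range m, y ^ i) - ((∑ i ∈ Finset.range m, y ^ i) - m) := by
        ring
      rw [this]; exact Ideal.sub_mem _ h2 hdiff
    exact (mem_maximalIdeal _).1 h3 hmu
  have := (hsum.mul_right_eq_zero).1 hgeom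
  exact sub_eq_zero.1 this

/-- Units form of `pow_ppart_eq_one` (the shape produced by `TWChars.exists_characters_of_*`). -/
theorem units_pow_ppart_eq_one {p : ℕ} (hp : p.Prime) (hpA : (p : A) ∈ maximalIdeal A)
    {u : Aˣ} (hu : (u : A) - 1 ∈ maximalIdeal A) {q a m : ℕ} (hq : q = p ^ a * m + 1)
    (hm : ¬ p ∣ m) (huq : (u : A) ^ q = u) : u ^ (p ^ a) = 1 := by
  apply Units.ext
  rw [Units.val_pow_eq_pow_val, Units.val_one]
  exact pow_ppart_eq_one hp hpA hu hq hm huq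

end Ppart

section Hom

variable {A : Type*} [CommRing A]

/-- The hom `ℤ/n → Aˣ`, `1 ↦ x`, for `x ^ n = 1` (multiplicative notation on the source). -/
noncomputable def deltaHom (n : ℕ) (x : Aˣ) (hx : x ^ n = 1) : Multiplicative (ZMod n) →* Aˣ :=
  AddMonoidHom.toMultiplicativeLeft
    (ZMod.lift n ⟨zmultiplesHom (Additive Aˣ) (Additive.ofMul x), by
      rw [zmultiplesHom_apply, natCast_zsmul, ← ofMul_pow, hx, ofMul_one]⟩)

theorem deltaHom_ofAdd_natCast (n : ℕ) (x : Aˣ) (hx : x ^ n = 1) (k : ℕ) :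
    deltaHom n x hx (Multiplicative.ofAdd (k : ZMod n)) = x ^ k := by
  have : ((k : ℤ) : ZMod n) = (k : ZMod n) := by push_cast; rfl
  rw [deltaHom, AddMonoidHom.coe_toMultiplicativeLeft, Function.comp_apply, Function.comp_apply,
    toAdd_ofAdd, ← this, ZMod.lift_coe]
  simp

theorem deltaHom_gen (n : ℕ) (x : Aˣ) (hx : x ^ n = 1) :
    deltaHom n x hx (Multiplicative.ofAdd (1 : ZMod n)) = x := by
  have := deltaHom_ofAdd_natCast n x hx 1
  rwa [Nat.cast_one, pow_one] at this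

/-- The `𝒪`-algebra hom `𝒪[ℤ/n] → A`, generator `↦ x`. -/
noncomputable def deltaAlgHom (O : Type*) [CommSemiring O] [Algebra O A] (n : ℕ) (x : Aˣ)
    (hx : x ^ n = 1) : MonoidAlgebra O (Multiplicative (ZMod n)) →ₐ[O] A :=
  MonoidAlgebra.lift O A (Multiplicative (ZMod n)) ((Units.coeHom A).comp (deltaHom n x hx))

theorem deltaAlgHom_of (O : Type*) [CommSemiring O] [Algebra O A] (n : ℕ) (x : Aˣ)
    (hx : x ^ n = 1) (d : Multiplicative (ZMod n)) :
    deltaAlgHom O n x hx (MonoidAlgebra.of O _ d) = (deltaHom n x hx d : A) := by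
  rw [deltaAlgHom, MonoidAlgebra.lift_of]; rfl

theorem deltaAlgHom_gen (O : Type*) [CommSemiring O] [Algebra O A] (n : ℕ) (x : Aˣ)
    (hx : x ^ n = 1) :
    deltaAlgHom O n x hx (MonoidAlgebra.of O _ (Multiplicative.ofAdd (1 : ZMod n))) = (x : A) := by
  rw [deltaAlgHom_of, deltaHom_gen]

/-- Several Taylor–Wiles primes: `Δ_Q = (ℤ/n)^r → Aˣ`, `j`-th generator `↦ x j`. -/
noncomputable def deltaHomPi {r : ℕ} (n : ℕ) (x : Fin r → Aˣ) (hx : ∀ j, x j ^ n = 1) :
    Multiplicative (Fin r → ZMod n) →* Aˣ :=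
  ∏ j : Fin r, (deltaHom n (x j) (hx j)).comp
    (AddMonoidHom.toMultiplicative (Pi.evalAddMonoidHom (fun _ : Fin r => ZMod n) j))

theorem deltaHomPi_apply {r : ℕ} (n : ℕ) (x : Fin r → Aˣ) (hx : ∀ j, x j ^ n = 1)
    (d : Multiplicative (Fin r → ZMod n)) :
    deltaHomPi n x hx d =
      ∏ j : Fin r, deltaHom n (x j) (hx j) (Multiplicative.ofAdd (Multiplicative.toAdd d j)) := by
  rw [deltaHomPi, MonoidHom.finsetProd_apply]
  rfl

theorem deltaHomPi_single {r : ℕ} (n : ℕ) (x : Fin r → Aˣ) (hx : ∀ j, x j ^ n = 1) (j : Fin r) :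
    deltaHomPi n x hx (Multiplicative.ofAdd (Pi.single j (1 : ZMod n))) = x j := by
  classical
  rw [deltaHomPi_apply, Finset.prod_eq_single j]
  · rw [toAdd_ofAdd, Pi.single_eq_same, deltaHom_gen]
  · intro i _ hij
    rw [toAdd_ofAdd, Pi.single_eq_of_ne hij, ofAdd_zero, map_one]
  · intro h; exact absurd (Finset.mem_univ j) h

/-- The `𝒪`-algebra hom `𝒪[(ℤ/n)^r] → A`. -/
noncomputable def deltaAlgHomPi (O : Type*) [CommSemiring O] [Algebra O A] {r : ℕ} (n : ℕ)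
    (x : Fin r → Aˣ) (hx : ∀ j, x j ^ n = 1) :
    MonoidAlgebra O (Multiplicative (Fin r → ZMod n)) →ₐ[O] A :=
  MonoidAlgebra.lift O A (Multiplicative (Fin r → ZMod n))
    ((Units.coeHom A).comp (deltaHomPi n x hx))

theorem deltaAlgHomPi_single (O : Type*) [CommSemiring O] [Algebra O A] {r : ℕ} (n : ℕ)
    (x : Fin r → Aˣ) (hx : ∀ j, x j ^ n = 1) (j : Fin r) :
    deltaAlgHomPi O n x hx
      (MonoidAlgebra.of O _ (Multiplicative.ofAdd (Pi.single j (1 : ZMod n)))) = (x j : A) := by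
  rw [deltaAlgHomPi, MonoidAlgebra.lift_of]
  show ((deltaHomPi n x hx _ : Aˣ) : A) = _
  rw [deltaHomPi_single]

end Hom

end Fermat.Agent.GB.E2.DeltaHom
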