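/-
GATE-B / E2 leaf GB-E2-TWDET (helper91).  Mathlib + Prelude `Def_GaloisRep_Adic` only.

**Determinant of a diagonal representation**: if `ρ σ (B i) = χ i • B i` (`i = 0, 1`) then
`det (ρ σ) = χ 0 * χ 1`.  Consequently, for the characters `χ_i : D_P →* Aˣ` at a Taylor–Wiles prime
(`TWChars.exists_characters_of_*`) and a representation whose determinant is unramified at `P`
(e.g. `DetIsCyclotomic p`, `q ≠ p`): `χ 1 s = (χ 0 s)⁻¹` on inertia — `ρ|I_P = ξ ⊕ ξ⁻¹`.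
-/
import Mathlib
import Fermat.Prelude.Def_GaloisRep_Adic

set_option autoImplicit false

namespace Fermat.Agent.GB.E2.TWDet

section Abstract

variable {A : Type*} [CommRing A] {V : Type*} [AddCommGroup V] [Module A V]

/-- the determinant of an endomorphism diagonal in a basis indexed by `Fin 2` -/
theorem det_eq_mul_of_diag (B : Module.Basis (Fin 2) A V) (T : Module.End A V) (x y : A)
    (h0 : T (B 0) = x • B 0) (h1 : T (B 1) = y • B 1) : LinearMap.det T = x * y := by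
  classical
  rw [← LinearMap.det_toMatrix B T, Matrix.det_fin_two]
  have e : ∀ i j, LinearMap.toMatrix B B T i j = B.repr (T (B j)) i :=
    fun i j => LinearMap.toMatrix_apply B B T i j
  rw [e, e, e, e, h0, h1]
  simp

/-- the trace of an endomorphism diagonal in a basis indexed by `Fin 2` -/
theorem trace_eq_add_of_diag (B : Module.Basis (Fin 2) A V) (T : Module.End A V) (x y : A)
    (h0 : T (B 0) = x • B 0) (h1 : T (B 1) = y • B 1) : LinearMap.trace A V T = x + y := by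
  classical
  rw [LinearMap.trace_eq_matrix_trace A B T, Matrix.trace_fin_two]
  have e : ∀ i j, LinearMap.toMatrix B B T i j = B.repr (T (B j)) i :=
    fun i j => LinearMap.toMatrix_apply B B T i j
  rw [e, e, h0, h1]
  simp

end Abstract

section Galois

variable {A : Type} [CommRing A] [IsLocalRing A]

/-- `χ 0 σ * χ 1 σ = det ρ σ` for a representation diagonal on a subgroup `H`. -/
theorem chars_mul_eq_det (ρ : GaloisRepAdic A)
    (H : Subgroup (AlgebraicClosure ℚ ≃ₐ[ℚ] AlgebraicClosure ℚ))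
    (B : Module.Basis (Fin 2) A ρ.V) (χ : Fin 2 → H →* Aˣ)
    (hχ : ∀ (i : Fin 2) (σ : H), ρ.ρ (σ : AlgebraicClosure ℚ ≃ₐ[ℚ] AlgebraicClosure ℚ) (B i) =
      (χ i σ : A) • B i) (σ : H) :
    χ 0 σ * χ 1 σ = ρ.det (σ : AlgebraicClosure ℚ ≃ₐ[ℚ] AlgebraicClosure ℚ) := by
  apply Units.ext
  rw [Units.val_mul]
  have h := det_eq_mul_of_diag B (ρ.ρ (σ : AlgebraicClosure ℚ ≃ₐ[ℚ] AlgebraicClosure ℚ))
    (χ 0 σ : A) (χ 1 σ : A) (hχ 0 σ) (hχ 1 σ)
  rw [← h]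
  rfl

/-- `tr ρ σ = χ 0 σ + χ 1 σ`. -/
theorem chars_add_eq_trace (ρ : GaloisRepAdic A)
    (H : Subgroup (AlgebraicClosure ℚ ≃ₐ[ℚ] AlgebraicClosure ℚ))
    (B : Module.Basis (Fin 2) A ρ.V) (χ : Fin 2 → H →* Aˣ)
    (hχ : ∀ (i : Fin 2) (σ : H), ρ.ρ (σ : AlgebraicClosure ℚ ≃ₐ[ℚ] AlgebraicClosure ℚ) (B i) =
      (χ i σ : A) • B i) (σ : H) :
    ρ.trace (σ : AlgebraicClosure ℚ ≃ₐ[ℚ] AlgebraicClosure ℚ) = (χ 0 σ : A) + (χ 1 σ : A) :=
  trace_eq_add_of_diag B _ _ _ (hχ 0 σ) (hχ 1 σ)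

/-- If `det ρ σ = 1` (e.g. `σ` in the inertia group at `q ≠ p` and `det ρ` cyclotomic) then
`χ 1 σ = (χ 0 σ)⁻¹`. -/
theorem char_one_eq_inv (ρ : GaloisRepAdic A)
    (H : Subgroup (AlgebraicClosure ℚ ≃ₐ[ℚ] AlgebraicClosure ℚ))
    (B : Module.Basis (Fin 2) A ρ.V) (χ : Fin 2 → H →* Aˣ)
    (hχ : ∀ (i : Fin 2) (σ : H), ρ.ρ (σ : AlgebraicClosure ℚ ≃ₐ[ℚ] AlgebraicClosure ℚ) (B i) =
      (χ i σ : A) • B i) (σ : H)
    (hdet : ρ.det (σ : AlgebraicClosure ℚ ≃ₐ[ℚ] AlgebraicClosure ℚ) = 1) :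
    χ 1 σ = (χ 0 σ)⁻¹ := by
  have h := chars_mul_eq_det ρ H B χ hχ σ
  rw [hdet] at h
  exact (eq_inv_of_mul_eq_one_right h)

end Galois

end Fermat.Agent.GB.E2.TWDet
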