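/-
GATE-B / E2 leaf GB-E2-TWFUNCT (helper91).  Mathlib + Prelude `Def_GaloisRep_Adic` only.

**Uniqueness and base-change functoriality of the characters at a Taylor–Wiles prime.**

If `ρ|H` is diagonal in two bases `B`, `B'` and the Frobenius eigenvalues are "separated"
(`x' - y`, `y' - x` units: the two diagonalisations are ordered the same way and the two
eigenvalues are distinct mod `𝔪`), then `B' i ∈ Aˣ • B i` and the characters agree
(`diag_basis_unique`, `diag_char_unique`).  Consequently the characters `χ_i : D_P →* Aˣ` of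
`TWChars.exists_characters_of_*` are compatible with every local homomorphism `f : A → A'`:
if `ρ'` is equivalent to `ρ.baseChangeAlong f`, then `χ'_i = f ∘ χ_i` (`chars_map_eq`).
So `𝒪[Δ_Q] → R_Q → T_Q` IS the Galois `𝒪[Δ_Q]`-structure of `T_Q`, and `ξ'(σ_i) ∈ T_Q` is the image
of the universal `χ(σ_i) ∈ R_Q` (input of (UNIT) part 1).
-/
import Mathlib
import Fermat.Prelude.Def_GaloisRep_Adic

set_option autoImplicit false

namespace Fermat.Agent.GB.E2.TWFunct

open IsLocalRing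
open scoped TensorProduct

section Abstract

variable {A : Type*} [CommRing A] {V : Type*} [AddCommGroup V] [Module A V]

/-- Two eigenbases of one endomorphism with separated eigenvalues differ by units. -/
theorem diag_basis_unique (F : Module.End A V) (B B' : Module.Basis (Fin 2) A V) (x y x' y' : A)
    (h0 : F (B 0) = x • B 0) (h1 : F (B 1) = y • B 1)
    (h0' : F (B' 0) = x' • B' 0) (h1' : F (B' 1) = y' • B' 1)
    (hu : IsUnit (x' - y)) (hu' : IsUnit (y' - x)) :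
    B' 0 = B.repr (B' 0) 0 • B 0 ∧ B' 1 = B.repr (B' 1) 1 • B 1 := by
  have e0 := B.sum_repr (B' 0)
  have e1 := B.sum_repr (B' 1)
  rw [Fin.sum_univ_two] at e0 e1
  set c00 := B.repr (B' 0) 0
  set c10 := B.repr (B' 0) 1
  set c01 := B.repr (B' 1) 0
  set c11 := B.repr (B' 1) 1
  -- apply `F` to `B' 0 = c00 B0 + c10 B1`
  have k0 : (c00 * x) • B 0 + (c10 * y) • B 1 = (x' * c00) • B 0 + (x' * c10) • B 1 := by
    have := congrArg F e0
    rw [map_add, map_smul, map_smul, h0, h1, smul_smul, smul_smul, h0', ← e0, smul_add, smul_smul,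
      smul_smul] at this
    exact this
  have k1 : (c01 * x) • B 0 + (c11 * y) • B 1 = (y' * c01) • B 0 + (y' * c11) • B 1 := by
    have := congrArg F e1
    rw [map_add, map_smul, map_smul, h0, h1, smul_smul, smul_smul, h1', ← e1, smul_add, smul_smul,
      smul_smul] at this
    exact this
  have r0 := congrArg (fun v => B.repr v 1) k0
  have r1 := congrArg (fun v => B.repr v 0) k1
  simp only [map_add, map_smul, Module.Basis.repr_self, Finsupp.add_apply, Finsupp.smul_apply,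
    Finsupp.single_apply, smul_eq_mul] at r0 r1
  simp at r0 r1
  have z10 : c10 = 0 := by
    have : c10 * (x' - y) = 0 := by linear_combination -r0
    exact (hu.mul_left_eq_zero).1 this
  have z01 : c01 = 0 := by
    have : c01 * (y' - x) = 0 := by linear_combination -r1
    exact (hu'.mul_left_eq_zero).1 this
  rw [z10, zero_smul, add_zero] at e0
  rw [z01, zero_smul, zero_add] at e1
  exact ⟨e0.symm, e1.symm⟩

/-- If `B' i = c • B i` then any endomorphism diagonal in both bases has the same `i`-th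
eigenvalue in both. -/
theorem eigenvalue_eq_of_smul (T : Module.End A V) (B B' : Module.Basis (Fin 2) A V) (i : Fin 2)
    (c : A) (hc : B' i = c • B i) (a a' : A) (h : T (B i) = a • B i) (h' : T (B' i) = a' • B' i) :
    a' = a := by
  have h1 : a' • B' i = a • B' i := by
    rw [← h', hc, map_smul, h, smul_smul, smul_smul, mul_comm]
  have h2 := congrArg (fun v => B'.repr v i) h1
  simpa using h2

/-- **Uniqueness of the diagonal characters**: `S ⊆ G` a set containing `φ`; `ρ|S` diagonal in `B`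
with eigenvalues `χ i`, and in `B'` with eigenvalues `χ' i`; separated at `φ`.  Then `χ' = χ`. -/
theorem diag_char_unique {G : Type*} [Monoid G] (ρ : G →* Module.End A V)
    (B B' : Module.Basis (Fin 2) A V) (S : Set G) (φ : G) (hφ : φ ∈ S) (χ χ' : Fin 2 → G → A)
    (hχ : ∀ i, ∀ g ∈ S, ρ g (B i) = χ i g • B i) (hχ' : ∀ i, ∀ g ∈ S, ρ g (B' i) = χ' i g • B' i)
    (hu : IsUnit (χ' 0 φ - χ 1 φ)) (hu' : IsUnit (χ' 1 φ - χ 0 φ)) :
    ∀ i, ∀ g ∈ S, χ' i g = χ i g := by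
  obtain ⟨u0, u1⟩ := diag_basis_unique (ρ φ) B B' (χ 0 φ) (χ 1 φ) (χ' 0 φ) (χ' 1 φ)
    (hχ 0 φ hφ) (hχ 1 φ hφ) (hχ' 0 φ hφ) (hχ' 1 φ hφ) hu hu'
  intro i g hg
  fin_cases i
  · exact eigenvalue_eq_of_smul (ρ g) B B' 0 _ u0 _ _ (hχ 0 g hg) (hχ' 0 g hg)
  · exact eigenvalue_eq_of_smul (ρ g) B B' 1 _ u1 _ _ (hχ 1 g hg) (hχ' 1 g hg)

end Abstract

section Galois

variable {A A' : Type} [CommRing A] [IsLocalRing A] [CommRing A'] [IsLocalRing A']

/-- a unit modulo `𝔪` -/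
theorem isUnit_of_sub_mem {x y : A} (hx : IsUnit x) (h : y - x ∈ maximalIdeal A) : IsUnit y := by
  by_contra hy
  have h2 : y ∈ maximalIdeal A := (mem_maximalIdeal _).2 hy
  have h3 : x ∈ maximalIdeal A := by
    have : x = y - (y - x) := by ring
    rw [this]; exact Ideal.sub_mem _ h2 h
  exact (mem_maximalIdeal _).1 h3 hx

/-- **Base-change functoriality of the Taylor–Wiles characters.**  `ρ` over `A` diagonal on
`S ∋ φ` in `B` with characters `χ`; `f : A → A'` local; `ρ'` over `A'` equivalent to the base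
change of `ρ`, diagonal on `S` in `B'` with characters `χ'`; both ordered by the same residual
Frobenius eigenvalues `a₀ ≢ b₀`.  Then `χ' i g = f (χ i g)` on `S`. -/
theorem chars_map_eq (f : A →+* A') (hf : IsLocalHom f) (ρ : GaloisRepAdic A)
    (ρ' : GaloisRepAdic A') (e : GaloisRepAdic.Equiv (ρ.baseChangeAlong f hf) ρ')
    (S : Set (AlgebraicClosure ℚ ≃ₐ[ℚ] AlgebraicClosure ℚ))
    (φ : AlgebraicClosure ℚ ≃ₐ[ℚ] AlgebraicClosure ℚ) (hφ : φ ∈ S)
    (B : Module.Basis (Fin 2) A ρ.V)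
    (χ : Fin 2 → (AlgebraicClosure ℚ ≃ₐ[ℚ] AlgebraicClosure ℚ) → A)
    (hχ : ∀ i, ∀ g ∈ S, ρ.ρ g (B i) = χ i g • B i)
    (B' : Module.Basis (Fin 2) A' ρ'.V)
    (χ' : Fin 2 → (AlgebraicClosure ℚ ≃ₐ[ℚ] AlgebraicClosure ℚ) → A')
    (hχ' : ∀ i, ∀ g ∈ S, ρ'.ρ g (B' i) = χ' i g • B' i)
    (a₀ b₀ : A) (hab : IsUnit (a₀ - b₀))
    (ha : χ 0 φ - a₀ ∈ maximalIdeal A) (hb : χ 1 φ - b₀ ∈ maximalIdeal A)
    (ha' : χ' 0 φ - f a₀ ∈ maximalIdeal A') (hb' : χ' 1 φ - f b₀ ∈ maximalIdeal A') :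
    ∀ i, ∀ g ∈ S, χ' i g = f (χ i g) := by
  let _ : Algebra A A' := f.toAlgebra
  have hfmem : ∀ a ∈ maximalIdeal A, f a ∈ maximalIdeal A' := fun a ha =>
    haveI := hf; map_nonunit f a ha
  -- the transported basis of `ρ'.V`
  let B₁ : Module.Basis (Fin 2) A' ρ'.V := (B.baseChange A').map e.toLinearEquiv
  have hB₁ : ∀ i, ∀ g ∈ S, ρ'.ρ g (B₁ i) = f (χ i g) • B₁ i := by
    intro i g hg
    have h1 : B₁ i = e.toLinearEquiv ((1 : A') ⊗ₜ[A] B i) :=
      congrArg e.toLinearEquiv (Module.Basis.baseChange_apply A' B i)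
    have h2 : (ρ.baseChangeAlong f hf).ρ g ((1 : A') ⊗ₜ[A] B i) =
        ((1 : A') ⊗ₜ[A] (ρ.ρ g (B i)) : A' ⊗[A] ρ.V) := LinearMap.baseChange_tmul _ _ _
    have h3 : ((1 : A') ⊗ₜ[A] (χ i g • B i) : A' ⊗[A] ρ.V) =
        f (χ i g) • ((1 : A') ⊗ₜ[A] B i) := by
      rw [TensorProduct.tmul_smul, TensorProduct.smul_tmul', TensorProduct.smul_tmul',
        Algebra.smul_def, smul_eq_mul, mul_one, mul_one]
      rfl
    have h4 := e.map_apply g ((1 : A') ⊗ₜ[A] B i)
    rw [h1, ← h4]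
    have h5 : (ρ.baseChangeAlong f hf).ρ g ((1 : A') ⊗ₜ[A] B i) =
        (f (χ i g) • ((1 : A') ⊗ₜ[A] B i) : A' ⊗[A] ρ.V) := by
      rw [h2, hχ i g hg, h3]
    exact (congrArg e.toLinearEquiv h5).trans (map_smul e.toLinearEquiv _ _)
  refine diag_char_unique ρ'.ρ B₁ B' S φ hφ (fun i g => f (χ i g)) χ' hB₁ hχ' ?_ ?_
  · -- `χ' 0 φ - f (χ 1 φ) ≡ f (a₀ - b₀)`
    refine isUnit_of_sub_mem (hab.map f) ?_
    have : χ' 0 φ - f (χ 1 φ) - f (a₀ - b₀) = (χ' 0 φ - f a₀) - f (χ 1 φ - b₀) := by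
      rw [map_sub, map_sub]; ring
    rw [this]
    exact Ideal.sub_mem _ ha' (hfmem _ hb)
  · refine isUnit_of_sub_mem ((hab.map f).neg) ?_
    have : χ' 1 φ - f (χ 0 φ) - -f (a₀ - b₀) = (χ' 1 φ - f b₀) - f (χ 0 φ - a₀) := by
      rw [map_sub, map_sub]; ring
    rw [this]
    exact Ideal.sub_mem _ hb' (hfmem _ ha)

/-- Subgroup / monoid-hom form of `chars_map_eq` (the shape of
`TWChars.exists_characters_of_residual`, `H := P.decompositionSubgroup ℚ`):
`χ' i = (Units.map f).comp (χ i)`. -/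
theorem chars_comp_eq (f : A →+* A') (hf : IsLocalHom f) (ρ : GaloisRepAdic A)
    (ρ' : GaloisRepAdic A') (e : GaloisRepAdic.Equiv (ρ.baseChangeAlong f hf) ρ')
    (H : Subgroup (AlgebraicClosure ℚ ≃ₐ[ℚ] AlgebraicClosure ℚ)) (φ : H)
    (B : Module.Basis (Fin 2) A ρ.V) (χ : Fin 2 → H →* Aˣ)
    (hχ : ∀ (i : Fin 2) (σ : H), ρ.ρ (σ : AlgebraicClosure ℚ ≃ₐ[ℚ] AlgebraicClosure ℚ) (B i) =
      (χ i σ : A) • B i)
    (B' : Module.Basis (Fin 2) A' ρ'.V) (χ' : Fin 2 → H →* A'ˣ)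
    (hχ' : ∀ (i : Fin 2) (σ : H), ρ'.ρ (σ : AlgebraicClosure ℚ ≃ₐ[ℚ] AlgebraicClosure ℚ) (B' i) =
      (χ' i σ : A') • B' i)
    (a₀ b₀ : A) (hab : IsUnit (a₀ - b₀))
    (ha : (χ 0 φ : A) - a₀ ∈ maximalIdeal A) (hb : (χ 1 φ : A) - b₀ ∈ maximalIdeal A)
    (ha' : (χ' 0 φ : A') - f a₀ ∈ maximalIdeal A') (hb' : (χ' 1 φ : A') - f b₀ ∈ maximalIdeal A') :
    ∀ i : Fin 2, χ' i = (Units.map (f : A →* A')).comp (χ i) := by
  classical
  have key := chars_map_eq f hf ρ ρ' e (H : Set _) (φ : _) φ.2 B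
    (fun i g => if h : g ∈ H then (χ i ⟨g, h⟩ : A) else 0)
    (fun i g hg => by
      have hg' : g ∈ H := hg
      simp only [hg', dif_pos]
      exact hχ i ⟨g, hg'⟩)
    B' (fun i g => if h : g ∈ H then (χ' i ⟨g, h⟩ : A') else 0)
    (fun i g hg => by
      have hg' : g ∈ H := hg
      simp only [hg', dif_pos]
      exact hχ' i ⟨g, hg'⟩)
    a₀ b₀ hab (by simpa using ha) (by simpa using hb) (by simpa using ha') (by simpa using hb')
  intro i
  ext σ
  have := key i σ σ.2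
  simp only [σ.2, dif_pos] at this
  rw [MonoidHom.comp_apply, Units.coe_map]
  exact this

end Galois

end Fermat.Agent.GB.E2.TWFunct
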