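/-
GATE-B / E2 leaf GB-E2-TWUNR (helper91).  Mathlib + Prelude `Def_GaloisRep_Adic` only.

**The Taylor–Wiles characters die at the unramified level.**

`ρ` over `A` diagonal on a set `S` in a basis `B` with characters `χ i`; `f : A → A'` a local
homomorphism and `ρ'` over `A'` equivalent to `ρ.baseChangeAlong f`.  Then `ρ'` is diagonal on `S`
in the transported basis with characters `f ∘ χ i` (`exists_basis_map`).  If moreover `ρ' g = 1`
(e.g. `g` in the inertia group at `r` and `ρ'` unramified at `r`: the level-`N` representation,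
S31) then `f (χ i g) = 1` (`map_char_eq_one`).

This is hypothesis (1) of helper66's (UNIT): the Galois generator `x = χ(σ_r) ∈ T_Q` maps to `1` in
the Hecke algebra `T_0` of `M_Q / (D_r - 1) M_Q`, i.e. `(x - 1) M_Q ⊆ (D_r - 1) M_Q`.
-/
import Mathlib
import Fermat.Prelude.Def_GaloisRep_Adic

set_option autoImplicit false

namespace Fermat.Agent.GB.E2.TWUnr

open IsLocalRing
open scoped TensorProduct

variable {A A' : Type} [CommRing A] [IsLocalRing A] [CommRing A'] [IsLocalRing A']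

/-- **Transport of a diagonalising basis along a base change + equivalence.** -/
theorem exists_basis_map (f : A →+* A') (hf : IsLocalHom f) (ρ : GaloisRepAdic A)
    (ρ' : GaloisRepAdic A') (e : GaloisRepAdic.Equiv (ρ.baseChangeAlong f hf) ρ')
    (S : Set (AlgebraicClosure ℚ ≃ₐ[ℚ] AlgebraicClosure ℚ))
    (B : Module.Basis (Fin 2) A ρ.V)
    (χ : Fin 2 → (AlgebraicClosure ℚ ≃ₐ[ℚ] AlgebraicClosure ℚ) → A)
    (hχ : ∀ i, ∀ g ∈ S, ρ.ρ g (B i) = χ i g • B i) :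
    ∃ B₁ : Module.Basis (Fin 2) A' ρ'.V, ∀ i, ∀ g ∈ S, ρ'.ρ g (B₁ i) = f (χ i g) • B₁ i := by
  let _ : Algebra A A' := f.toAlgebra
  let B₁ : Module.Basis (Fin 2) A' ρ'.V := (B.baseChange A').map e.toLinearEquiv
  refine ⟨B₁, fun i g hg => ?_⟩
  have h1 : B₁ i = e.toLinearEquiv ((1 : A') ⊗ₜ[A] B i) :=
    congrArg e.toLinearEquiv (Module.Basis.baseChange_apply A' B i)
  have h2 : (ρ.baseChangeAlong f hf).ρ g ((1 : A') ⊗ₜ[A] B i) =
      ((1 : A') ⊗ₜ[A] (ρ.ρ g (B i)) : A' ⊗[A] ρ.V) := LinearMap.baseChange_tmul _ _ _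
  have h3 : ((1 : A') ⊗ₜ[A] (χ i g • B i) : A' ⊗[A] ρ.V) =
      f (χ i g) • ((1 : A') ⊗ₜ[A] B i) := by
    rw [TensorProduct.tmul_smul, TensorProduct.smul_tmul', TensorProduct.smul_tmul',
      Algebra.smul_def, smul_eq_mul, mul_one, mul_one]
    rfl
  have h4 := e.map_apply g ((1 : A') ⊗ₜ[A] B i)
  rw [h1, ← h4]
  have h5 : (ρ.baseChangeAlong f hf).ρ g ((1 : A') ⊗ₜ[A] B i) =
      (f (χ i g) • ((1 : A') ⊗ₜ[A] B i) : A' ⊗[A] ρ.V) := by
    rw [h2, hχ i g hg, h3]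
  exact (congrArg e.toLinearEquiv h5).trans (map_smul e.toLinearEquiv _ _)

/-- **The characters become trivial where the target representation is trivial.** -/
theorem map_char_eq_one (f : A →+* A') (hf : IsLocalHom f) (ρ : GaloisRepAdic A)
    (ρ' : GaloisRepAdic A') (e : GaloisRepAdic.Equiv (ρ.baseChangeAlong f hf) ρ')
    (S : Set (AlgebraicClosure ℚ ≃ₐ[ℚ] AlgebraicClosure ℚ))
    (B : Module.Basis (Fin 2) A ρ.V)
    (χ : Fin 2 → (AlgebraicClosure ℚ ≃ₐ[ℚ] AlgebraicClosure ℚ) → A)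
    (hχ : ∀ i, ∀ g ∈ S, ρ.ρ g (B i) = χ i g • B i)
    (g : AlgebraicClosure ℚ ≃ₐ[ℚ] AlgebraicClosure ℚ) (hg : g ∈ S) (hg1 : ρ'.ρ g = 1) (i : Fin 2) :
    f (χ i g) = 1 := by
  obtain ⟨B₁, hB₁⟩ := exists_basis_map f hf ρ ρ' e S B χ hχ
  have h := hB₁ i g hg
  rw [hg1, Module.End.one_apply] at h
  have h2 := congrArg (fun v => B₁.repr v i) h
  simp only [Module.Basis.repr_self, Finsupp.single_eq_same, map_smul, Finsupp.smul_apply,
    smul_eq_mul, mul_one] at h2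
  exact h2.symm

/-- Subgroup / monoid-hom form, frozen unramifiedness: `ρ'.IsUnramifiedAt q`, `P | q`,
`χ : Fin 2 → D_P →* Aˣ` as in `TWChars.exists_characters_of_residual`: for `s ∈ I_P`,
`f (χ i s) = 1`. -/
theorem map_char_eq_one_of_isUnramifiedAt (f : A →+* A') (hf : IsLocalHom f)
    (ρ : GaloisRepAdic A) (ρ' : GaloisRepAdic A')
    (e : GaloisRepAdic.Equiv (ρ.baseChangeAlong f hf) ρ')
    (P : ValuationSubring (AlgebraicClosure ℚ)) {q : ℕ} (hP : P.LiesOverPrime q)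
    (hunr : ρ'.IsUnramifiedAt q)
    (B : Module.Basis (Fin 2) A ρ.V) (χ : Fin 2 → P.decompositionSubgroup ℚ →* Aˣ)
    (hχ : ∀ (i : Fin 2) (σ : P.decompositionSubgroup ℚ),
      ρ.ρ (σ : AlgebraicClosure ℚ ≃ₐ[ℚ] AlgebraicClosure ℚ) (B i) = (χ i σ : A) • B i)
    (s : P.decompositionSubgroup ℚ)
    (hs : (s : AlgebraicClosure ℚ ≃ₐ[ℚ] AlgebraicClosure ℚ) ∈ P.inertiaSubgroupIn ℚ)
    (i : Fin 2) : f (χ i s : A) = 1 := by
  classical
  have key := map_char_eq_one f hf ρ ρ' e ((P.decompositionSubgroup ℚ : Subgroup _) : Set _) B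
    (fun i g => if h : g ∈ P.decompositionSubgroup ℚ then (χ i ⟨g, h⟩ : A) else 0)
    (fun i g hg => by
      have hg' : g ∈ P.decompositionSubgroup ℚ := hg
      simp only [hg', dif_pos]
      exact hχ i ⟨g, hg'⟩)
    (s : AlgebraicClosure ℚ ≃ₐ[ℚ] AlgebraicClosure ℚ) s.2 (hunr P hP _ hs) i
  simpa using key

end Fermat.Agent.GB.E2.TWUnr
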